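/-
CELL-M3 / S12, node (PAIR), file 2 (helper71): **Vélu's `c₄`, `c₆` of the quotient of the Tate
curve by a finite subgroup, summed over the subgroup as a set of points.**

`K` complete ultrametric of characteristic zero, `0 < ‖q‖ < 1`, `P = T2.Final.tateP q`.  For
`q = ζ^a h^M` (`ζ` a primitive `N`-th root of unity, `‖h‖ < 1`) the points `P (ζ^i h^j)`,
`i < N`, `j < M`, are pairwise distinct (`param_injOn`) and

  `c₄ + 120 ∑_y veluF4 y = N⁴ E₄(h^N)`,  `c₆ + 252 ∑_y veluF6 y = -N⁶ E₆(h^N)`   (`tate_sum`)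

(helper37's `T5.velu_mixed` with `I2`, `I4` discharged by helper68's `WeqD.i2`, `WeqD.i4`).
-/
import Mathlib
import Fermat.Agent.GZ.Tate.T2.Final
import Fermat.Agent.GZ.Tate.T3.FinalN
import Fermat.Agent.GZ.Tate.T5.Mixed
import Fermat.Agent.GZ.Tate.T5.VeluBridge
import Fermat.Agent.GZ.Tate.WeqD.Plug
import Fermat.Agent.GZ.Tate.Out.Velu

set_option autoImplicit false
set_option linter.unusedSectionVars false

noncomputable section

namespace Fermat.Agent.GZ.S12.Pair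

open Finset WeierstrassCurve Fermat.Agent.GZ.Tate Fermat.Agent.GZ.Tate.T0
  Fermat.Agent.S16.L1h67

universe v

variable {K : Type v} [NormedField K] [IsUltrametricDist K] [CompleteSpace K] [CharZero K]
  [DecidableEq K]
variable {q : K} (hq0 : q ≠ 0) (hq1 : ‖q‖ < 1)

/-- the point `P (ζ^i h^j)`. -/
def paramPt (ζ h : Kˣ) (x : ℕ × ℕ) : (tateCurve q).toAffine.Point :=
  T2.Final.tateP q hq0 hq1 (ζ ^ x.1 * h ^ x.2)

section Param

variable {ζ h : Kˣ} {N M : ℕ} (hζ : IsPrimitiveRoot (ζ : K) N) (hN : 0 < N) (hM : 0 < M)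
  (hh1 : ‖(h : K)‖ < 1) (a : ℤ) (hq : q = (ζ : K) ^ a * (h : K) ^ M)

include hζ hN hM hh1 hq in
/-- **the points `P (ζ^i h^j)`, `i < N`, `j < M`, are pairwise distinct.** -/
theorem paramPt_injOn :
    Set.InjOn (paramPt hq0 hq1 ζ h) (range N ×ˢ range M : Finset (ℕ × ℕ)) := by
  rintro ⟨i, j⟩ hx ⟨i', j'⟩ hx' hP
  rw [Finset.mem_coe, mem_product, mem_range, mem_range] at hx hx'
  simp only at hx hx'
  have hmem := (T3.Core.P_eq_iff (T2.Final.tateP q hq0 hq1) (T2.Final.tateP_mul hq0 hq1)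
    (T2.Final.tateP_eq_zero_iff hq0 hq1) _ _).1 hP
  obtain ⟨m, hm⟩ := Subgroup.mem_zpowers_iff.mp hmem
  have hζ1 : ‖(ζ : K)‖ = 1 := T3.TatePlugN.norm_zeta hN.ne' hζ
  have hh0 : (h : K) ≠ 0 := h.ne_zero
  have hζ0 : (ζ : K) ≠ 0 := ζ.ne_zero
  have hhpos : 0 < ‖(h : K)‖ := norm_pos_iff.2 hh0
  -- in `K`
  have hm' : q ^ m * ((ζ : K) ^ i' * (h : K) ^ j') = (ζ : K) ^ i * (h : K) ^ j := by
    have h1 := congrArg (fun w : Kˣ => (w : K)) hm
    simp only [Units.val_zpow_eq_zpow_val, Units.val_mk0, Units.val_div_eq_div_val,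
      Units.val_mul, Units.val_pow_eq_pow_val] at h1
    rw [h1]
    field_simp
  have hqn : ‖q‖ = ‖(h : K)‖ ^ M := by
    rw [hq, norm_mul, norm_zpow, hζ1, one_zpow, one_mul, norm_pow]
  -- norms
  have hnorm : ‖(h : K)‖ ^ ((M : ℤ) * m + (j' : ℤ)) = ‖(h : K)‖ ^ ((j : ℕ) : ℤ) := by
    have h2 := congrArg norm hm'
    rw [norm_mul, norm_mul, norm_mul, norm_zpow, norm_pow, norm_pow, norm_pow, norm_pow, hζ1,
      one_pow, one_pow, one_mul, one_mul, hqn] at h2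
    rw [zpow_add₀ hhpos.ne', zpow_mul, zpow_natCast, zpow_natCast, zpow_natCast]
    exact h2
  have hexp := zpow_right_injective₀ hhpos hh1.ne hnorm
  have hm0 : m = 0 := by
    have hj0 : (0 : ℤ) ≤ j := by positivity
    have hj'0 : (0 : ℤ) ≤ j' := by positivity
    have hjM : (j : ℤ) < M := by exact_mod_cast hx.2
    have hj'M : (j' : ℤ) < M := by exact_mod_cast hx'.2
    have hM0 : (0 : ℤ) < M := by exact_mod_cast hM
    rcases lt_trichotomy m 0 with hlt | heq | hgt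
    · have : (M : ℤ) * m ≤ (M : ℤ) * (-1) := mul_le_mul_of_nonneg_left (by omega) hM0.le
      omega
    · exact heq
    · have : (M : ℤ) * 1 ≤ (M : ℤ) * m := mul_le_mul_of_nonneg_left (by omega) hM0.le
      omega
  subst hm0
  have hjj : j = j' := by
    have : (j' : ℤ) = j := by simpa using hexp
    exact_mod_cast this.symm
  subst hjj
  rw [zpow_zero, one_mul] at hm'
  have hii : (ζ : K) ^ i' = (ζ : K) ^ i := mul_right_cancel₀ (pow_ne_zero j hh0) hm'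
  have := hζ.pow_inj hx'.1 hx.1 hii
  subst this
  rfl

end Param

/-! ### the two sums over the set of points -/

section Sum

variable {ζ h : Kˣ} {N M : ℕ} (hζ : IsPrimitiveRoot (ζ : K) N) (hN : 0 < N) (hM : 0 < M)
  (hh1 : ‖(h : K)‖ < 1) (a : ℤ) (hq : q = (ζ : K) ^ a * (h : K) ^ M)

include hζ hN hh1 hq in
theorem paramPt_eq_some {x : ℕ × ℕ} (hx : x ∈ (range N ×ˢ range M).erase (0, 0)) :
    ∃ hns, paramPt hq0 hq1 ζ h x =
      Affine.Point.some (X q ((ζ : K) ^ x.1 * (h : K) ^ x.2))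
        (Y q ((ζ : K) ^ x.1 * (h : K) ^ x.2)) hns := by
  have hadm : IsAdm q ((ζ : K) ^ x.1 * (h : K) ^ x.2) :=
    T5.isAdm_mixed hζ hN h.ne_zero hh1 a hq hx
  have hval : ((ζ ^ x.1 * h ^ x.2 : Kˣ) : K) = (ζ : K) ^ x.1 * (h : K) ^ x.2 := by
    rw [Units.val_mul, Units.val_pow_eq_pow_val, Units.val_pow_eq_pow_val]
  have hadm' : IsAdm q ((ζ ^ x.1 * h ^ x.2 : Kˣ) : K) := by rw [hval]; exact hadm
  have h1 := T2.Final.tateP_of_isAdm hq0 hq1 hadm'
  refine ⟨T2.Final.hns hq0 hq1 _ hadm, ?_⟩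
  rw [paramPt, h1]
  simp only [hval]

omit [CharZero K] in
theorem paramPt_zero (ζ h : Kˣ) : paramPt hq0 hq1 ζ h (0, 0) = 0 := by
  rw [paramPt, pow_zero, pow_zero, one_mul]
  exact (T2.Final.tateP_eq_zero_iff hq0 hq1 1).2 (Subgroup.one_mem _)

include hζ hN hM hh1 hq in
/-- **Vélu's `c₄`, `c₆` for the set of points `{P (ζ^i h^j)}`**. -/
theorem tate_sum :
    (tateCurve q).c₄ + 120 * ∑ y ∈ (range N ×ˢ range M).image (paramPt hq0 hq1 ζ h),
        Out.veluF4 (tateCurve q) y = (N : K) ^ 4 * ev ((h : K) ^ N) e4Z ∧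
      (tateCurve q).c₆ + 252 * ∑ y ∈ (range N ×ˢ range M).image (paramPt hq0 hq1 ζ h),
        Out.veluF6 (tateCurve q) y = -((N : K) ^ 6 * ev ((h : K) ^ N) e6Z) := by
  have hinj := paramPt_injOn hq0 hq1 hζ hN hM hh1 a hq
  have hmem : ((0 : ℕ), (0 : ℕ)) ∈ range N ×ˢ range M := by
    rw [mem_product]; exact ⟨mem_range.2 hN, mem_range.2 hM⟩
  have hhN1 : ‖(h : K) ^ N‖ < 1 := by
    rw [norm_pow]; exact pow_lt_one₀ (norm_nonneg _) hh1 hN.ne'
  obtain ⟨e4, e6⟩ := T5.velu_mixed hq0 hq1 hζ hN hM h.ne_zero hh1 a hq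
    (WeqD.i2 hq0 hq1) (WeqD.i4 hq0 hq1 (by exact_mod_cast (by norm_num : (6 : ℕ) ≠ 0)))
  constructor
  · rw [Finset.sum_image hinj, ← Finset.add_sum_erase _ _ hmem, paramPt_zero, Out.veluF4_zero,
      zero_add, T5.ev_e4Z_eq hhN1, ← e4, T5.veluC4F]
    congr 2
    refine Finset.sum_congr rfl fun x hx => ?_
    obtain ⟨hns, e⟩ := paramPt_eq_some hq0 hq1 hζ hN hh1 a hq hx
    rw [e, Out.veluF4_some]
    rfl
  · rw [Finset.sum_image hinj, ← Finset.add_sum_erase _ _ hmem, paramPt_zero, Out.veluF6_zero,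
      zero_add, T5.ev_e6Z_eq hhN1, ← e6, T5.veluC6F]
    congr 2
    refine Finset.sum_congr rfl fun x hx => ?_
    obtain ⟨hns, e⟩ := paramPt_eq_some hq0 hq1 hζ hN hh1 a hq hx
    rw [e, Out.veluF6_some]
    rfl

end Sum

end Fermat.Agent.GZ.S12.Pair
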