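/-
CELL-M3 / S12, node (PAIR), file 4 (helper71): **the two shapes of a finite subgroup of the Tate
curve** as sets of points `{P (ζ^i h^j) : i < N, j < M}`.

`K` complete ultrametric of characteristic zero, `0 < ‖q‖ < 1`, `P = T2.Final.tateP q`.
`IsUnitPt y` : `y = P u` with `‖u‖ = 1` (the Tate-side form of "zero component").

* `can_image` [CAN]: a subgroup `C` of order `n` all of whose points are unit points is
  `{P (ζ^i) : i < n}` (`ζ` a primitive `n`-th root of unity; `M = 1`, `h = q`);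
* `mix_image` [MIX]: `C = ⟨g⟩` cyclic of order `p^(k+1)` with `p • g` a unit point and `g` not:
  `C = {P (ζ'^i h^j) : i < p^k, j < p}` with `ζ'` a primitive `p^k`-th root of unity,
  `q = ζ'^a h^p`, and `s := h^(p^k)` satisfies `s^p = q^(p^k)`
  (helper43's `CyclicN.exact_order_cases`).
-/
import Mathlib
import Fermat.Agent.GZ.S12.Pair.Tate
import Fermat.Agent.GZ.Tate.T3.CyclicN

set_option autoImplicit false
set_option linter.unusedSectionVars false

noncomputable section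

namespace Fermat.Agent.GZ.S12.Pair

open Finset WeierstrassCurve Fermat.Agent.GZ.Tate

universe v

variable {K : Type v} [NormedField K] [IsUltrametricDist K] [CompleteSpace K] [CharZero K]
  [DecidableEq K]
variable {q : K} (hq0 : q ≠ 0) (hq1 : ‖q‖ < 1)

/-- a point of `E_q(K)` with a parameter of norm one. -/
def IsUnitPt (y : (tateCurve q).toAffine.Point) : Prop :=
  ∃ u : Kˣ, ‖(u : K)‖ = 1 ∧ y = T2.Final.tateP q hq0 hq1 u

section Basic

omit [CharZero K] in
theorem tateP_zpow' (u : Kˣ) (m : ℤ) :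
    T2.Final.tateP q hq0 hq1 (u ^ m) = m • T2.Final.tateP q hq0 hq1 u :=
  T3.Core.P_zpow _ (T2.Final.tateP_mul hq0 hq1) u m

omit [CharZero K] in
theorem tateP_pow' (u : Kˣ) (m : ℕ) :
    T2.Final.tateP q hq0 hq1 (u ^ m) = m • T2.Final.tateP q hq0 hq1 u :=
  T3.Core.P_pow _ (T2.Final.tateP_mul hq0 hq1) u m

omit [CharZero K] in
theorem tateP_mul_q_pow (u : Kˣ) (m : ℕ) :
    T2.Final.tateP q hq0 hq1 (u * Units.mk0 q hq0 ^ m) = T2.Final.tateP q hq0 hq1 u := by
  rw [T2.Final.tateP_mul,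
    (T2.Final.tateP_eq_zero_iff hq0 hq1 _).2 (Subgroup.pow_mem _ (Subgroup.mem_zpowers _) m),
    add_zero]

omit [CharZero K] in
theorem IsUnitPt.zsmul {y : (tateCurve q).toAffine.Point} (hy : IsUnitPt hq0 hq1 y) (m : ℤ) :
    IsUnitPt hq0 hq1 (m • y) := by
  obtain ⟨u, hu, rfl⟩ := hy
  refine ⟨u ^ m, ?_, (tateP_zpow' hq0 hq1 u m).symm⟩
  rw [Units.val_zpow_eq_zpow_val, norm_zpow, hu, one_zpow]

omit [CharZero K] in
theorem paramPt_eq (ζ h : Kˣ) (i j : ℕ) :
    paramPt hq0 hq1 ζ h (i, j) =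
      i • T2.Final.tateP q hq0 hq1 ζ + j • T2.Final.tateP q hq0 hq1 h := by
  rw [paramPt, T2.Final.tateP_mul, tateP_pow', tateP_pow']

end Basic

/-! ### [CAN] -/

section Can

variable {n : ℕ} (hn : n ≠ 0) {ζ : Kˣ} (hζ : IsPrimitiveRoot (ζ : K) n)

include hn hζ in
/-- **[CAN]** a subgroup of order `n` of unit points is `{P (ζ^i) : i < n}`. -/
theorem can_image (C : AddSubgroup (tateCurve q).toAffine.Point) (hcard : Nat.card C = n)
    (hunit : ∀ y ∈ C, IsUnitPt hq0 hq1 y) :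
    (C : Set (tateCurve q).toAffine.Point) =
      ↑((range n ×ˢ range 1).image (paramPt hq0 hq1 ζ (Units.mk0 q hq0))) := by
  have hnpos : 0 < n := Nat.pos_of_ne_zero hn
  have hqeq : q = (ζ : K) ^ (0 : ℤ) * ((Units.mk0 q hq0 : Kˣ) : K) ^ 1 := by
    rw [zpow_zero, one_mul, pow_one, Units.val_mk0]
  have hinj := paramPt_injOn hq0 hq1 hζ hnpos Nat.one_pos
    (by rw [Units.val_mk0]; exact hq1) 0 hqeq
  have hSc : ((range n ×ˢ range 1).image (paramPt hq0 hq1 ζ (Units.mk0 q hq0))).card = n := by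
    rw [Finset.card_image_of_injOn hinj, Finset.card_product, Finset.card_range,
      Finset.card_range, mul_one]
  have hsub : (C : Set (tateCurve q).toAffine.Point) ⊆
      ↑((range n ×ˢ range 1).image (paramPt hq0 hq1 ζ (Units.mk0 q hq0))) := by
    intro y hy
    have hyC : y ∈ C := hy
    have hny : n • y = 0 := by
      have h1 : Nat.card C • (⟨y, hyC⟩ : C) = 0 := card_nsmul_eq_zero'
      have h2 := congrArg (fun z : C => (z : (tateCurve q).toAffine.Point)) h1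
      simpa [hcard] using h2
    obtain ⟨i, hi, hyi⟩ := (T3.FinalN.torsionN_unit_iff hq0 hq1 hn hζ hny).1 (hunit y hyC)
    rw [Finset.mem_coe, Finset.mem_image]
    refine ⟨(i, 0), ?_, ?_⟩
    · rw [mem_product]; exact ⟨mem_range.2 hi, mem_range.2 Nat.one_pos⟩
    · rw [paramPt_eq, zero_smul, add_zero, hyi]
  refine Set.eq_of_subset_of_ncard_le hsub ?_ (Finset.finite_toSet _)
  rw [Set.ncard_coe_finset, hSc, ← hcard]
  exact (Nat.card_coe_set_eq (C : Set (tateCurve q).toAffine.Point)).le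

end Can

/-! ### [MIX] -/

section Mix

variable {p k : ℕ} (hp : p.Prime) {ζ t : Kˣ} (hζ : IsPrimitiveRoot (ζ : K) (p ^ (k + 1)))
  (ht : t ^ (p ^ (k + 1)) = Units.mk0 q hq0)

include hp hζ ht in
/-- **[MIX]** `C = ⟨g⟩` of order `p^(k+1)`, `p • g` a unit point, `g` not a unit point. -/
theorem mix_image (C : AddSubgroup (tateCurve q).toAffine.Point)
    {g : (tateCurve q).toAffine.Point} (hgC : g ∈ C)
    (hord : addOrderOf g = p ^ (k + 1)) (hcard : Nat.card C = p ^ (k + 1))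
    (hE0 : IsUnitPt hq0 hq1 (p • g)) (hnot : ¬ IsUnitPt hq0 hq1 g) :
    ∃ (ζ' h : Kˣ) (a : ℤ), IsPrimitiveRoot (ζ' : K) (p ^ k) ∧ ‖(h : K)‖ < 1 ∧
      q = (ζ' : K) ^ a * (h : K) ^ p ∧ ((h : K) ^ (p ^ k)) ^ p = q ^ (p ^ k) ∧
      (C : Set (tateCurve q).toAffine.Point) =
        ↑((range (p ^ k) ×ˢ range p).image (paramPt hq0 hq1 ζ' h)) := by
  have hpk1 : p ^ (k + 1) ≠ 0 := pow_ne_zero _ hp.ne_zero
  have hpkpos : 0 < p ^ k := pow_pos hp.pos k
  have hζ1 : ‖(ζ : K)‖ = 1 := T3.TatePlugN.norm_zeta hpk1 hζ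
  have hζone : ζ ^ (p ^ (k + 1)) = 1 := by
    apply Units.ext
    rw [Units.val_pow_eq_pow_val, hζ.pow_eq_one, Units.val_one]
  rcases T3.CyclicN.exact_order_cases hq0 hq1 hp hζ ht hord hE0 with
    ⟨b, -, -, hg⟩ | ⟨b, e, -, he0, hep, hkb, hg⟩
  · exfalso
    apply hnot
    refine ⟨ζ ^ b, ?_, hg⟩
    rw [Units.val_pow_eq_pow_val, norm_pow, hζ1, one_pow]
  -- the `p`-th root `t₁` of `q`
  set t₁ : Kˣ := t ^ (p ^ k) with ht₁def
  have ht₁ : t₁ ^ p = Units.mk0 q hq0 := T3.CyclicN.t₁_pow hq0 ht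
  obtain ⟨ht₁pos, ht₁lt⟩ := T3.TatePlugN.norm_t_pos_lt q hq0 hq1 ht₁
  -- the inverse `e'` of `e` mod `p`
  have hcop : Nat.Coprime e p :=
    ((Nat.Prime.coprime_iff_not_dvd hp).2 (Nat.not_dvd_of_pos_of_lt he0 hep)).symm
  obtain ⟨e', -, he'⟩ := Nat.exists_mul_mod_eq_one_of_coprime hcop hp.one_lt
  set m' : ℕ := e * e' / p with hm'
  have hee' : e * e' = p * m' + 1 := by
    have := Nat.div_add_mod (e * e') p
    rw [he'] at this
    exact this.symm
  -- `h` and `ζ'`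
  set h : Kˣ := ζ ^ (b * e') * t₁ with hh
  set ζ' : Kˣ := ζ ^ p with hζ'def
  have hζ' : IsPrimitiveRoot ((ζ' : Kˣ) : K) (p ^ k) := by
    rw [hζ'def, Units.val_pow_eq_pow_val]
    exact hζ.pow (pow_pos hp.pos _) (pow_succ' p k)
  have hhnorm : ‖(h : K)‖ = ‖(t₁ : K)‖ := by
    rw [hh, Units.val_mul, Units.val_pow_eq_pow_val, norm_mul, norm_pow, hζ1, one_pow, one_mul]
  have hh1 : ‖(h : K)‖ < 1 := by rw [hhnorm]; exact ht₁lt
  -- `h^p = ζ^(b e' p) q`
  have hhp : h ^ p = ζ ^ (b * e' * p) * Units.mk0 q hq0 := by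
    rw [hh, mul_pow, ← pow_mul, ht₁]
  have hhpK : (h : K) ^ p = (ζ : K) ^ (b * e' * p) * q := by
    have := congrArg (fun w : Kˣ => (w : K)) hhp
    simpa [Units.val_pow_eq_pow_val] using this
  have hqeq : q = ((ζ' : Kˣ) : K) ^ (-((b * e' : ℕ) : ℤ)) * (h : K) ^ p := by
    rw [hhpK, hζ'def, Units.val_pow_eq_pow_val, zpow_neg, zpow_natCast, ← pow_mul,
      mul_comm p (b * e'), ← mul_assoc, inv_mul_cancel₀ (pow_ne_zero _ ζ.ne_zero), one_mul]
  have hs : ((h : K) ^ (p ^ k)) ^ p = q ^ (p ^ k) := by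
    rw [← pow_mul, mul_comm, pow_mul, hhpK, mul_pow, ← pow_mul,
      show b * e' * p * p ^ k = p ^ (k + 1) * (b * e') by rw [pow_succ]; ring, pow_mul,
      hζ.pow_eq_one, one_pow, one_mul]
  -- `P h = e' • g`
  have key1 : e' • g = T2.Final.tateP q hq0 hq1 h := by
    rw [hg, ← tateP_pow']
    have e1 : t₁ ^ (e * e') = Units.mk0 q hq0 ^ m' * t₁ := by
      rw [hee', pow_succ, pow_mul, ht₁]
    have : (ζ ^ b * t₁ ^ e) ^ e' = h * Units.mk0 q hq0 ^ m' := by
      calc (ζ ^ b * t₁ ^ e) ^ e' = ζ ^ (b * e') * t₁ ^ (e * e') := by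
            rw [mul_pow, pow_mul, pow_mul]
        _ = h * Units.mk0 q hq0 ^ m' := by
            rw [e1, hh, mul_assoc, mul_comm t₁]
    rw [this, tateP_mul_q_pow]
  have hPh : T2.Final.tateP q hq0 hq1 h ∈ C := by
    rw [← key1]; exact C.nsmul_mem hgC e'
  -- `i • P ζ' ∈ C`
  have hPζ : ∀ i : ℕ, i < p ^ k → i • T2.Final.tateP q hq0 hq1 ζ' ∈ C := by
    intro i hi
    rcases Nat.eq_zero_or_pos k with hk0 | hk0
    · subst hk0
      have : i = 0 := by simpa using hi
      subst this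
      rw [zero_smul]; exact C.zero_mem
    · have hpb : ¬ p ∣ b := hkb hk0
      have hcopb : Nat.Coprime b (p ^ (k + 1)) :=
        Nat.Coprime.pow_right _ ((Nat.Prime.coprime_iff_not_dvd hp).2 hpb).symm
      obtain ⟨b', -, hb'⟩ := Nat.exists_mul_mod_eq_one_of_coprime hcopb
        (Nat.one_lt_pow (Nat.succ_ne_zero k) hp.one_lt)
      have hbb' : b * b' = p ^ (k + 1) * (b * b' / p ^ (k + 1)) + 1 := by
        have := Nat.div_add_mod (b * b') (p ^ (k + 1))
        rw [hb'] at this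
        exact this.symm
      have hζbb' : ζ ^ (b * b') = ζ := by
        rw [hbb', pow_succ, pow_mul, hζone, one_pow, one_mul]
      have key2 : (p * b') • g = T2.Final.tateP q hq0 hq1 ζ' := by
        rw [hg, ← tateP_pow']
        have e2 : ζ ^ (b * (p * b')) = ζ' := by
          rw [show b * (p * b') = b * b' * p by ring, pow_mul, hζbb']
        have e3 : t₁ ^ (e * (p * b')) = Units.mk0 q hq0 ^ (e * b') := by
          rw [show e * (p * b') = p * (e * b') by ring, pow_mul, ht₁]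
        have : (ζ ^ b * t₁ ^ e) ^ (p * b') = ζ' * Units.mk0 q hq0 ^ (e * b') := by
          calc (ζ ^ b * t₁ ^ e) ^ (p * b') = ζ ^ (b * (p * b')) * t₁ ^ (e * (p * b')) := by
                rw [mul_pow, ← pow_mul, ← pow_mul]
            _ = ζ' * Units.mk0 q hq0 ^ (e * b') := by rw [e2, e3]
        rw [this, tateP_mul_q_pow]
      refine C.nsmul_mem ?_ i
      rw [← key2]; exact C.nsmul_mem hgC _
  refine ⟨ζ', h, -((b * e' : ℕ) : ℤ), hζ', hh1, hqeq, hs, ?_⟩
  have hinj := paramPt_injOn hq0 hq1 hζ' hpkpos hp.pos hh1 _ hqeq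
  have hSc : ((range (p ^ k) ×ˢ range p).image (paramPt hq0 hq1 ζ' h)).card = p ^ (k + 1) := by
    rw [Finset.card_image_of_injOn hinj, Finset.card_product, Finset.card_range,
      Finset.card_range, pow_succ]
  have hsub : (↑((range (p ^ k) ×ˢ range p).image (paramPt hq0 hq1 ζ' h)) :
      Set (tateCurve q).toAffine.Point) ⊆ (C : Set (tateCurve q).toAffine.Point) := by
    intro y hy
    rw [Finset.mem_coe, Finset.mem_image] at hy
    obtain ⟨⟨i, j⟩, hij, rfl⟩ := hy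
    rw [mem_product, mem_range, mem_range] at hij
    rw [paramPt_eq]
    exact C.add_mem (hPζ i hij.1) (C.nsmul_mem hPh j)
  have hCfin : (C : Set (tateCurve q).toAffine.Point).Finite := by
    have : Finite C := Nat.finite_of_card_ne_zero (by rw [hcard]; exact hpk1)
    exact Set.toFinite _
  refine (Set.eq_of_subset_of_ncard_le hsub ?_ hCfin).symm
  rw [Set.ncard_coe_finset, hSc, ← hcard]
  exact (Nat.card_coe_set_eq (C : Set (tateCurve q).toAffine.Point)).ge

end Mix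

end Fermat.Agent.GZ.S12.Pair
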