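/-
CELL-M3 / S12, node (PAIR), file 1 (helper71): **the rational `j`-invariant of the quotient of
`W_ℚ` by a finite Galois-stable subgroup `N ⊆ W(ℚ̄)`** (Vélu's formulas, summed over the SUBGROUP —
no choice of a generator).

`W : WeierstrassCurve ℤ`, `Pt = ((W.map ℤ→ℚ)⁄ℚ̄).Point`, `N : AddSubgroup Pt`:

* `sum4 W N = ∑ᶠ x ∈ N, veluF4 x`, `sum6 W N = ∑ᶠ x ∈ N, veluF6 x`   (`veluF4 0 = veluF6 0 = 0`);
* `c4Qb W N = c₄ + 120 sum4`, `c6Qb W N = c₆ + 252 sum6`   (Vélu's `c₄`, `c₆` of `W/N`, in `ℚ̄`);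
* `c4Rat W N`, `c6Rat W N : ℚ` the rational numbers with these images (`0` if there is none);
* `jOf W N = 1728 c₄'³ / (c₄'³ - c₆'²) : ℚ`.

`algebraMap_c4Rat`, `algebraMap_c6Rat` : for `N` finite and `G_ℚ`-stable the two sums are rational.
`jOf_bot` : `jOf W ⊥ = jRat W`.
-/
import Mathlib
import Fermat.Prelude.Def_FLTPrelim_GaloisRep
import Fermat.Agent.GZ.Mod.Pin
import Fermat.Agent.GZ.Tate.Out.Velu

set_option autoImplicit false
set_option linter.unusedSectionVars false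

noncomputable section

namespace Fermat.Agent.GZ.S12.Pair

open WeierstrassCurve Fermat.Agent.GZ.Tate.Out Fermat.Agent.GZ.Mod

open scoped WeierstrassCurve.Affine

/-- `ℚ̄`. -/
local notation "Qb" => AlgebraicClosure ℚ

variable (W : WeierstrassCurve ℤ)

/-- the curve over `ℚ`. -/
abbrev WQ : WeierstrassCurve ℚ := W.map (Int.castRingHom ℚ)

/-- the group `W(ℚ̄)` (prelude shape). -/
abbrev Pt : Type := ((WQ W)⁄Qb).Point

/-- `∑_{x ∈ N} t(x)` (`t = 6x² + b₂x + b₄`, `0` at the origin). -/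
def sum4 (N : AddSubgroup (Pt W)) : Qb :=
  ∑ᶠ x ∈ (N : Set (Pt W)), veluF4 ((WQ W)⁄Qb) x

/-- `∑_{x ∈ N} (b₂ t(x) + 12 w(x))` (`0` at the origin). -/
def sum6 (N : AddSubgroup (Pt W)) : Qb :=
  ∑ᶠ x ∈ (N : Set (Pt W)), veluF6 ((WQ W)⁄Qb) x

/-- Vélu's `c₄` of `W/N`, in `ℚ̄`. -/
def c4Qb (N : AddSubgroup (Pt W)) : Qb := ((WQ W)⁄Qb).c₄ + 120 * sum4 W N

/-- Vélu's `c₆` of `W/N`, in `ℚ̄`. -/
def c6Qb (N : AddSubgroup (Pt W)) : Qb := ((WQ W)⁄Qb).c₆ + 252 * sum6 W N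

open Classical in
/-- Vélu's `c₄` of `W/N` as a rational number (`0` if `c4Qb W N` is not rational). -/
def c4Rat (N : AddSubgroup (Pt W)) : ℚ :=
  if h : ∃ r : ℚ, algebraMap ℚ Qb r = c4Qb W N then h.choose else 0

open Classical in
/-- Vélu's `c₆` of `W/N` as a rational number (`0` if `c6Qb W N` is not rational). -/
def c6Rat (N : AddSubgroup (Pt W)) : ℚ :=
  if h : ∃ r : ℚ, algebraMap ℚ Qb r = c6Qb W N then h.choose else 0

/-- **the `j`-invariant of `W/N`**, a rational number. -/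
def jOf (N : AddSubgroup (Pt W)) : ℚ :=
  1728 * c4Rat W N ^ 3 / (c4Rat W N ^ 3 - c6Rat W N ^ 2)

theorem c4Rat_spec {N : AddSubgroup (Pt W)} (h : ∃ r : ℚ, algebraMap ℚ Qb r = c4Qb W N) :
    algebraMap ℚ Qb (c4Rat W N) = c4Qb W N := by
  rw [c4Rat, dif_pos h]
  exact h.choose_spec

theorem c6Rat_spec {N : AddSubgroup (Pt W)} (h : ∃ r : ℚ, algebraMap ℚ Qb r = c6Qb W N) :
    algebraMap ℚ Qb (c6Rat W N) = c6Qb W N := by
  rw [c6Rat, dif_pos h]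
  exact h.choose_spec

/-! ### Galois invariance -/

section Galois

variable {W}

theorem veluF4_smul (σ : Qb ≃ₐ[ℚ] Qb) (x : Pt W) :
    veluF4 ((WQ W)⁄Qb) (σ • x) = σ (veluF4 ((WQ W)⁄Qb) x) :=
  veluF4_map (WQ W) σ.toAlgHom x

theorem veluF6_smul (σ : Qb ≃ₐ[ℚ] Qb) (x : Pt W) :
    veluF6 ((WQ W)⁄Qb) (σ • x) = σ (veluF6 ((WQ W)⁄Qb) x) :=
  veluF6_map (WQ W) σ.toAlgHom x

/-- a `G_ℚ`-stable finite sum of a `G_ℚ`-equivariant function is fixed. -/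
theorem smul_finsum_mem {N : AddSubgroup (Pt W)} (hfin : (N : Set (Pt W)).Finite)
    (hstab : ∀ σ : Qb ≃ₐ[ℚ] Qb, ∀ x ∈ N, σ • x ∈ N) (f : Pt W → Qb)
    (hf : ∀ (σ : Qb ≃ₐ[ℚ] Qb) (x : Pt W), f (σ • x) = σ (f x)) (σ : Qb ≃ₐ[ℚ] Qb) :
    σ (∑ᶠ x ∈ (N : Set (Pt W)), f x) = ∑ᶠ x ∈ (N : Set (Pt W)), f x := by
  have h1 : σ (∑ᶠ x ∈ (N : Set (Pt W)), f x) = ∑ᶠ x ∈ (N : Set (Pt W)), f (σ • x) := by
    have := AddMonoidHom.map_finsum_mem f (σ : Qb →+* Qb).toAddMonoidHom hfin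
    simp only [RingHom.toAddMonoidHom_eq_coe, AddMonoidHom.coe_coe, RingHom.coe_coe] at this
    rw [this]
    exact finsum_mem_congr rfl fun x _ => (hf σ x).symm
  rw [h1]
  -- reindex along `x ↦ σ • x`
  have hbij : Set.BijOn (fun x : Pt W => σ • x) (N : Set (Pt W)) (N : Set (Pt W)) := by
    refine ⟨fun x hx => hstab σ x hx, fun x _ y _ hxy => ?_, fun y hy => ?_⟩
    · have := congrArg (fun z => σ⁻¹ • z) hxy
      simpa [smul_smul] using this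
    · exact ⟨σ⁻¹ • y, hstab σ⁻¹ y hy, by simp [smul_smul]⟩
  exact finsum_mem_eq_of_bijOn (fun x : Pt W => σ • x) hbij fun x _ => rfl

theorem exists_rat_of_fixed {z : Qb} (hz : ∀ σ : Qb ≃ₐ[ℚ] Qb, σ z = z) :
    ∃ r : ℚ, algebraMap ℚ Qb r = z := by
  have : Algebra.IsAlgebraic ℚ Qb := AlgebraicClosure.isAlgebraic ℚ
  have : IsAlgClosure ℚ Qb := ⟨inferInstance, inferInstance⟩
  have hGal : IsGalois ℚ Qb := IsAlgClosure.isGalois ℚ _
  exact (InfiniteGalois.mem_range_algebraMap_iff_fixed (k := ℚ) z).2 hz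

theorem baseChange_c₄_fixed (σ : Qb ≃ₐ[ℚ] Qb) : σ ((WQ W)⁄Qb).c₄ = ((WQ W)⁄Qb).c₄ := by
  show σ ((WQ W).map (algebraMap ℚ Qb)).c₄ = ((WQ W).map (algebraMap ℚ Qb)).c₄
  rw [map_c₄]
  exact σ.commutes _

theorem baseChange_c₆_fixed (σ : Qb ≃ₐ[ℚ] Qb) : σ ((WQ W)⁄Qb).c₆ = ((WQ W)⁄Qb).c₆ := by
  show σ ((WQ W).map (algebraMap ℚ Qb)).c₆ = ((WQ W).map (algebraMap ℚ Qb)).c₆
  rw [map_c₆]
  exact σ.commutes _

/-- **rationality of `c₄(W/N)`**. -/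
theorem algebraMap_c4Rat {N : AddSubgroup (Pt W)} (hfin : (N : Set (Pt W)).Finite)
    (hstab : ∀ σ : Qb ≃ₐ[ℚ] Qb, ∀ x ∈ N, σ • x ∈ N) :
    algebraMap ℚ Qb (c4Rat W N) = c4Qb W N := by
  apply c4Rat_spec
  apply exists_rat_of_fixed
  intro σ
  rw [c4Qb, map_add, map_mul, map_ofNat, baseChange_c₄_fixed, sum4,
    smul_finsum_mem hfin hstab _ (fun σ x => veluF4_smul σ x) σ]

/-- **rationality of `c₆(W/N)`**. -/
theorem algebraMap_c6Rat {N : AddSubgroup (Pt W)} (hfin : (N : Set (Pt W)).Finite)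
    (hstab : ∀ σ : Qb ≃ₐ[ℚ] Qb, ∀ x ∈ N, σ • x ∈ N) :
    algebraMap ℚ Qb (c6Rat W N) = c6Qb W N := by
  apply c6Rat_spec
  apply exists_rat_of_fixed
  intro σ
  rw [c6Qb, map_add, map_mul, map_ofNat, baseChange_c₆_fixed, sum6,
    smul_finsum_mem hfin hstab _ (fun σ x => veluF6_smul σ x) σ]

end Galois

/-! ### the trivial subgroup -/

section Bot

theorem sum4_bot : sum4 W ⊥ = 0 := by
  rw [sum4]
  apply finsum_mem_eq_zero_of_forall_eq_zero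
  intro x hx
  have : x = 0 := by simpa using hx
  rw [this, veluF4_zero]

theorem sum6_bot : sum6 W ⊥ = 0 := by
  rw [sum6]
  apply finsum_mem_eq_zero_of_forall_eq_zero
  intro x hx
  have : x = 0 := by simpa using hx
  rw [this, veluF6_zero]

theorem c4Rat_bot : c4Rat W ⊥ = (W.c₄ : ℚ) := by
  have h : algebraMap ℚ Qb ((W.c₄ : ℤ) : ℚ) = c4Qb W ⊥ := by
    rw [c4Qb, sum4_bot, mul_zero, add_zero]
    show _ = ((W.map (Int.castRingHom ℚ)).map (algebraMap ℚ Qb)).c₄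
    rw [map_c₄, map_c₄]
    simp
  have h2 := c4Rat_spec W ⟨_, h⟩
  exact (algebraMap ℚ Qb).injective (h2.trans h.symm)

theorem c6Rat_bot : c6Rat W ⊥ = (W.c₆ : ℚ) := by
  have h : algebraMap ℚ Qb ((W.c₆ : ℤ) : ℚ) = c6Qb W ⊥ := by
    rw [c6Qb, sum6_bot, mul_zero, add_zero]
    show _ = ((W.map (Int.castRingHom ℚ)).map (algebraMap ℚ Qb)).c₆
    rw [map_c₆, map_c₆]
    simp
  have h2 := c6Rat_spec W ⟨_, h⟩
  exact (algebraMap ℚ Qb).injective (h2.trans h.symm)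

/-- **`a₀ = j(W)`**: the quotient by the trivial subgroup. -/
theorem jOf_bot (hΔ : W.Δ ≠ 0) : jOf W ⊥ = jRat W := by
  have hrel : (W.c₄ : ℚ) ^ 3 - (W.c₆ : ℚ) ^ 2 = 1728 * (W.Δ : ℚ) := by
    have := W.c_relation
    have h2 := congrArg (fun z : ℤ => (z : ℚ)) this
    push_cast at h2
    linarith
  have hΔq : ((W.Δ : ℤ) : ℚ) ≠ 0 := by exact_mod_cast hΔ
  rw [jOf, c4Rat_bot, c6Rat_bot, hrel, jRat]
  field_simp

end Bot

end Fermat.Agent.GZ.S12.Pair
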