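/-
CELL-M3 / S12, node (PAIR), file 3 (helper71): **transport of Vélu's sums to the Tate curve.**

`W : WeierstrassCurve ℤ`, `K` an ultrametric normed field of characteristic zero,
`ι : ℚ̄ →ₐ[ℚ] K`, `T : T4.TateUnif W K` (`T.C • W_K = tateCurve T.q`).

* `toK W ι : W(ℚ̄) →+ W_K(K)`, `toTateQb W T ι : W(ℚ̄) →+ E_q(K)` (both injective);
* `ι_veluF4`, `ι_veluF6` : `ι (veluF4 x) = u⁴ veluF4 (φ x)`, `ι (veluF6 x) = u⁶ veluF6 (φ x)`;
* `ι_c4Qb`, `ι_c6Qb` : for `N` finite with `φ '' N = S` (a finset of points of `E_q`),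
  `ι (c4Qb W N) = u⁴ (c₄(E_q) + 120 ∑_{y ∈ S} veluF4 y)`, same for `c₆` with `u⁶`, `252`.
-/
import Mathlib
import Fermat.Agent.GZ.S12.Pair.Def
import Fermat.Agent.GZ.Tate.T4.Plug

set_option autoImplicit false
set_option linter.unusedSectionVars false

noncomputable section

namespace Fermat.Agent.GZ.S12.Pair

open WeierstrassCurve Fermat.Agent.S05 Fermat.Agent.GZ.Tate Fermat.Agent.GZ.Tate.Out

open scoped WeierstrassCurve.Affine

/-- `ℚ̄`. -/
local notation "Qb" => AlgebraicClosure ℚ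

universe v

/-! ### `veluF4`, `veluF6` along an equality of curves -/

section Congr

variable {F : Type*} [Field F] [DecidableEq F]

theorem veluF4_pointCongr {W₁ W₂ : WeierstrassCurve F} (h : W₁ = W₂) (Q : W₁.toAffine.Point) :
    veluF4 W₂ (pointCongr h Q) = veluF4 W₁ Q := by
  subst h
  rcases Q with _ | ⟨x, y, hxy⟩
  · rfl
  · rfl

theorem veluF6_pointCongr {W₁ W₂ : WeierstrassCurve F} (h : W₁ = W₂) (Q : W₁.toAffine.Point) :
    veluF6 W₂ (pointCongr h Q) = veluF6 W₁ Q := by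
  subst h
  rcases Q with _ | ⟨x, y, hxy⟩
  · rfl
  · rfl

end Congr

section Transport

variable (W : WeierstrassCurve ℤ) {K : Type v} [NormedField K] [IsUltrametricDist K] [CharZero K]
  [DecidableEq K]

/-- `W(ℚ̄) → W_K(K)` along `ι`. -/
def toK (ι : Qb →ₐ[ℚ] K) : Pt W →+ (W.map (Int.castRingHom K)).toAffine.Point :=
  (pointCongr (T4.baseChange_rat_eq W K)).toAddMonoidHom.comp
    (Affine.Point.map (W' := WQ W) ι)

theorem toK_apply (ι : Qb →ₐ[ℚ] K) (x : Pt W) :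
    toK W ι x = pointCongr (T4.baseChange_rat_eq W K) (Affine.Point.map (W' := WQ W) ι x) := rfl

theorem toK_injective (ι : Qb →ₐ[ℚ] K) : Function.Injective (toK W ι) := by
  intro x y hxy
  rw [toK_apply, toK_apply] at hxy
  exact Affine.Point.map_injective (W' := WQ W) ι ((pointCongr _).injective hxy)

variable {W}

/-- `W(ℚ̄) → E_q(K)`: base change along `ι`, then the Tate uniformisation. -/
def toTateQb (T : T4.TateUnif W K) (ι : Qb →ₐ[ℚ] K) :
    Pt W →+ (tateCurve T.q).toAffine.Point :=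
  T.toTate.toAddMonoidHom.comp (toK W ι)

theorem toTateQb_apply (T : T4.TateUnif W K) (ι : Qb →ₐ[ℚ] K) (x : Pt W) :
    toTateQb T ι x = T.toTate (toK W ι x) := rfl

theorem toTateQb_injective (T : T4.TateUnif W K) (ι : Qb →ₐ[ℚ] K) :
    Function.Injective (toTateQb T ι) := by
  intro x y hxy
  rw [toTateQb_apply, toTateQb_apply] at hxy
  exact toK_injective W ι (T.toTate.injective hxy)

variable (T : T4.TateUnif W K) (ι : Qb →ₐ[ℚ] K)

theorem toK_eq_vc (x : Pt W) :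
    toK W ι x = vcPointEquiv (W.map (Int.castRingHom K)) T.C
      (pointCongr T.hC.symm (toTateQb T ι x)) := by
  rw [toTateQb_apply, T4.TateUnif.toTate]
  simp only [AddEquiv.trans_apply]
  have h1 : pointCongr T.hC.symm (pointCongr T.hC
      ((vcPointEquiv (W.map (Int.castRingHom K)) T.C).symm (toK W ι x))) =
      (vcPointEquiv (W.map (Int.castRingHom K)) T.C).symm (toK W ι x) :=
    (pointCongr T.hC).symm_apply_apply _
  rw [h1, AddEquiv.apply_symm_apply]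

/-- **`ι (t(x)) = u⁴ t(φ x)`**. -/
theorem ι_veluF4 (x : Pt W) :
    ι (veluF4 ((WQ W)⁄Qb) x) = (T.C.u : K) ^ 4 * veluF4 (tateCurve T.q) (toTateQb T ι x) := by
  rw [← veluF4_map (WQ W) ι x, ← veluF4_pointCongr (T4.baseChange_rat_eq W K), ← toK_apply,
    toK_eq_vc T ι x, veluF4_vcPointEquiv, veluF4_pointCongr]

/-- **`ι (b₂ t(x) + 12 w(x)) = u⁶ (b₂ t + 12 w)(φ x)`**. -/
theorem ι_veluF6 (x : Pt W) :
    ι (veluF6 ((WQ W)⁄Qb) x) = (T.C.u : K) ^ 6 * veluF6 (tateCurve T.q) (toTateQb T ι x) := by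
  rw [← veluF6_map (WQ W) ι x, ← veluF6_pointCongr (T4.baseChange_rat_eq W K), ← toK_apply,
    toK_eq_vc T ι x, veluF6_vcPointEquiv, veluF6_pointCongr]

theorem ι_c₄ : ι ((WQ W)⁄Qb).c₄ = (T.C.u : K) ^ 4 * (tateCurve T.q).c₄ := by
  have hu : (T.C.u : K) ≠ 0 := T.C.u.ne_zero
  have h1 : ι ((WQ W)⁄Qb).c₄ = (W.map (Int.castRingHom K)).c₄ := by
    show ι ((WQ W).map (algebraMap ℚ Qb)).c₄ = _
    rw [map_c₄, ι.commutes, ← map_c₄]
    show ((WQ W)⁄K).c₄ = _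
    rw [T4.baseChange_rat_eq]
  rw [h1, ← T.hC, variableChange_c₄, Units.val_inv_eq_inv_val]
  field_simp

theorem ι_c₆ : ι ((WQ W)⁄Qb).c₆ = (T.C.u : K) ^ 6 * (tateCurve T.q).c₆ := by
  have hu : (T.C.u : K) ≠ 0 := T.C.u.ne_zero
  have h1 : ι ((WQ W)⁄Qb).c₆ = (W.map (Int.castRingHom K)).c₆ := by
    show ι ((WQ W).map (algebraMap ℚ Qb)).c₆ = _
    rw [map_c₆, ι.commutes, ← map_c₆]
    show ((WQ W)⁄K).c₆ = _
    rw [T4.baseChange_rat_eq]
  rw [h1, ← T.hC, variableChange_c₆, Units.val_inv_eq_inv_val]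
  field_simp

/-- transport of a finite sum over `N` to the image finset `S = φ '' N`. -/
theorem ι_finsum {N : AddSubgroup (Pt W)} (hfin : (N : Set (Pt W)).Finite)
    {S : Finset (tateCurve T.q).toAffine.Point} (hS : toTateQb T ι '' (N : Set (Pt W)) = ↑S)
    (f : Pt W → Qb) (g : (tateCurve T.q).toAffine.Point → K) (c : K)
    (hfg : ∀ x, ι (f x) = c * g (toTateQb T ι x)) :
    ι (∑ᶠ x ∈ (N : Set (Pt W)), f x) = c * ∑ y ∈ S, g y := by
  have h1 := AddMonoidHom.map_finsum_mem f (ι : Qb →+* K).toAddMonoidHom hfin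
  simp only [RingHom.toAddMonoidHom_eq_coe, AddMonoidHom.coe_coe, RingHom.coe_coe] at h1
  rw [h1, finsum_mem_congr rfl fun x _ => hfg x, ← mul_finsum_mem' _ _ hfin,
    ← finsum_mem_coe_finset, ← hS,
    finsum_mem_image ((toTateQb_injective T ι).injOn)]

/-- **`ι (c₄(W/N)) = u⁴ (c₄(E_q) + 120 ∑_{y ∈ φ(N)} t(y))`**. -/
theorem ι_c4Qb {N : AddSubgroup (Pt W)} (hfin : (N : Set (Pt W)).Finite)
    {S : Finset (tateCurve T.q).toAffine.Point} (hS : toTateQb T ι '' (N : Set (Pt W)) = ↑S) :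
    ι (c4Qb W N) = (T.C.u : K) ^ 4 *
      ((tateCurve T.q).c₄ + 120 * ∑ y ∈ S, veluF4 (tateCurve T.q) y) := by
  rw [c4Qb, map_add, map_mul, map_ofNat, ι_c₄ T ι, sum4,
    ι_finsum T ι hfin hS _ _ _ (ι_veluF4 T ι)]
  ring

/-- **`ι (c₆(W/N)) = u⁶ (c₆(E_q) + 252 ∑_{y ∈ φ(N)} (b₂ t + 12 w)(y))`**. -/
theorem ι_c6Qb {N : AddSubgroup (Pt W)} (hfin : (N : Set (Pt W)).Finite)
    {S : Finset (tateCurve T.q).toAffine.Point} (hS : toTateQb T ι '' (N : Set (Pt W)) = ↑S) :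
    ι (c6Qb W N) = (T.C.u : K) ^ 6 *
      ((tateCurve T.q).c₆ + 252 * ∑ y ∈ S, veluF6 (tateCurve T.q) y) := by
  rw [c6Qb, map_add, map_mul, map_ofNat, ι_c₆ T ι, sum6,
    ι_finsum T ι hfin hS _ _ _ (ι_veluF6 T ι)]
  ring

end Transport

end Fermat.Agent.GZ.S12.Pair
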