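/-
CELL-M3 / S12, node (PAIR), file 5 (helper71): **the rational pairs `(a_k, a_(k-1))`**.

`W : WeierstrassCurve ℤ`, `Δ(W) ≠ 0`; `jOf W N : ℚ` (`Pair/Def.lean`) the `j`-invariant of `W/N`.
ONE local binder at a place (`LocData W K E0`, = (LOC a+b) of helper9's DESIGN v1): an embedding
`ι : ℚ̄ →ₐ[ℚ] K`, a Tate uniformisation `T : T4.TateUnif W K`, and the criterion
`x ∈ E0 ↔ φ x = P u, ‖u‖ = 1` for the (abstract) zero-component subgroup `E0`.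

Over `K` (complete ultrametric, algebraically closed, characteristic zero):
* `jRat_eq_jq`  : `(jRat W : K) = j(q)`;
* `jOf_can`     : `N` finite stable, all of `φ(N)` unit points ⟹ `(jOf W N : K) = j(q^#N)`;
* `jOf_mix`     : `N` stable cyclic of order `p^(k+1)`, `φ(pN)` unit points, `φ(N)` not
                  ⟹ `(jOf W N : K) = j(s)`, `s^p = q^(p^k)`.
Over `ℂ_[ℓ]`, with `D : LocData W ℂ_[ℓ] E0`:
* `padicValRat_jRat_neg'`, **`pair_can`**, **`pair_mix`**, **`pair_rel`**, and the packaged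
  `pairOut_can`, `pairOut_mix` in the argument order of `CorePair`.
-/
import Mathlib
import Fermat.Agent.GZ.S12.Pair.Transport
import Fermat.Agent.GZ.S12.Pair.TateGroup
import Fermat.Agent.GZ.Tate.T6.RelQ

set_option autoImplicit false
set_option linter.unusedSectionVars false

noncomputable section

namespace Fermat.Agent.GZ.S12.Pair

open Finset WeierstrassCurve Fermat.Agent.S05 Fermat.Agent.GZ.Tate Fermat.Agent.GZ.Tate.Out
  Fermat.Agent.GZ.Tate.T0 Fermat.Agent.S16.L1h67 Fermat.Agent.GZ.Mod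

open scoped WeierstrassCurve.Affine

/-- `ℚ̄`. -/
local notation "Qb" => AlgebraicClosure ℚ

universe v

/-! ### the `j`-value over `K` -/

section Local

variable {W : WeierstrassCurve ℤ} {K : Type v} [NormedField K] [IsUltrametricDist K]
  [CompleteSpace K] [CharZero K] [DecidableEq K]
variable (T : T4.TateUnif W K) (ι : Qb →ₐ[ℚ] K)

theorem ratCast_c4Rat {N : AddSubgroup (Pt W)} (hfin : (N : Set (Pt W)).Finite)
    (hstab : ∀ σ : Qb ≃ₐ[ℚ] Qb, ∀ x ∈ N, σ • x ∈ N) :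
    ((c4Rat W N : ℚ) : K) = ι (c4Qb W N) := by
  rw [← algebraMap_c4Rat hfin hstab, ι.commutes]
  exact (eq_ratCast _ _).symm

theorem ratCast_c6Rat {N : AddSubgroup (Pt W)} (hfin : (N : Set (Pt W)).Finite)
    (hstab : ∀ σ : Qb ≃ₐ[ℚ] Qb, ∀ x ∈ N, σ • x ∈ N) :
    ((c6Rat W N : ℚ) : K) = ι (c6Qb W N) := by
  rw [← algebraMap_c6Rat hfin hstab, ι.commutes]
  exact (eq_ratCast _ _).symm

/-- the `j`-value from the shape of `φ(N)`. -/
theorem jOf_eq_jq_of_image {N : AddSubgroup (Pt W)} (hfin : (N : Set (Pt W)).Finite)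
    (hstab : ∀ σ : Qb ≃ₐ[ℚ] Qb, ∀ x ∈ N, σ • x ∈ N)
    {ζ h : Kˣ} {n m : ℕ} (hζ : IsPrimitiveRoot (ζ : K) n) (hn : 0 < n) (hm : 0 < m)
    (hh1 : ‖(h : K)‖ < 1) (a : ℤ) (hq : T.q = (ζ : K) ^ a * (h : K) ^ m)
    (hS : toTateQb T ι '' (N : Set (Pt W)) =
      ↑((range n ×ˢ range m).image (paramPt T.q_ne T.norm_q ζ h))) :
    ((jOf W N : ℚ) : K) = T6.jq ((h : K) ^ n) := by
  obtain ⟨e4, e6⟩ := tate_sum T.q_ne T.norm_q hζ hn hm hh1 a hq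
  have h4 := ι_c4Qb T ι hfin hS
  have h6 := ι_c6Qb T ι hfin hS
  rw [e4, ← ratCast_c4Rat ι hfin hstab] at h4
  rw [e6, ← ratCast_c6Rat ι hfin hstab] at h6
  have hx0 : (h : K) ^ n ≠ 0 := pow_ne_zero _ h.ne_zero
  have hx1 : ‖(h : K) ^ n‖ < 1 := by
    rw [norm_pow]; exact pow_lt_one₀ (norm_nonneg _) hh1 hn.ne'
  have hu : (T.C.u : K) ≠ 0 := T.C.u.ne_zero
  have hnK : (n : K) ≠ 0 := Nat.cast_ne_zero.2 hn.ne'
  exact (T6.ratCast_eq_jq (lam := (T.C.u : K) * n) hx0 hx1 (mul_ne_zero hu hnK)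
    (by rw [h4]; ring) (by rw [h6]; ring) rfl).2

/-- `(j(W) : K) = j(q)`. -/
theorem jRat_eq_jq (hΔ : W.Δ ≠ 0) : ((jRat W : ℚ) : K) = T6.jq T.q := by
  set WK : WeierstrassCurve K := W.map (Int.castRingHom K) with hWK
  have hΔK : WK.Δ = ((W.Δ : ℤ) : K) := by rw [hWK, WeierstrassCurve.map_Δ]; rfl
  have hcK : WK.c₄ = ((W.c₄ : ℤ) : K) := by rw [hWK, WeierstrassCurve.map_c₄]; rfl
  have hΔ0 : ((W.Δ : ℤ) : K) ≠ 0 := Int.cast_ne_zero.2 hΔ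
  have hE : WK.IsElliptic := ⟨by rw [hΔK]; exact hΔ0.isUnit⟩
  have hj : WK.j = ((W.c₄ : ℤ) : K) ^ 3 / ((W.Δ : ℤ) : K) := by
    rw [WeierstrassCurve.j, hcK, div_eq_inv_mul]
    congr 1
    rw [Units.val_inv_eq_inv_val, WeierstrassCurve.coe_Δ', hΔK]
  have hET : (tateCurve T.q).IsElliptic := T0.pinned_isElliptic T.q T.norm_q T.q_ne
  have hcongr : ∀ (W₁ W₂ : WeierstrassCurve K) [W₁.IsElliptic] [W₂.IsElliptic], W₁ = W₂ →
      W₁.j = W₂.j := by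
    intro W₁ W₂ _ _ h
    subst h
    rfl
  have h1 : (tateCurve T.q).j = (T.C • WK).j := hcongr _ _ T.hC.symm
  rw [T6.jq, ← T0.pinned_j T.q T.norm_q, h1, variableChange_j, hj, jRat]
  push_cast
  rfl

variable [IsAlgClosed K]

/-- **[CAN]** `N` finite stable with `φ(N)` unit points: `(jOf W N : K) = j(q^#N)`. -/
theorem jOf_can {N : AddSubgroup (Pt W)} (hfin : (N : Set (Pt W)).Finite)
    (hstab : ∀ σ : Qb ≃ₐ[ℚ] Qb, ∀ x ∈ N, σ • x ∈ N)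
    (hcan : ∀ x ∈ N, IsUnitPt T.q_ne T.norm_q (toTateQb T ι x)) :
    ((jOf W N : ℚ) : K) = T6.jq (T.q ^ Nat.card N) := by
  have : Finite N := hfin.to_subtype
  set n : ℕ := Nat.card N with hn
  have hn0 : n ≠ 0 := Nat.card_pos.ne'
  have hNZ : NeZero (n : K) := ⟨Nat.cast_ne_zero.2 hn0⟩
  obtain ⟨ζ₀, hζ₀⟩ := HasEnoughRootsOfUnity.exists_primitiveRoot K n
  set ζ : Kˣ := Units.mk0 ζ₀ (hζ₀.ne_zero hn0) with hζdef
  have hζ : IsPrimitiveRoot (ζ : K) n := by rw [hζdef, Units.val_mk0]; exact hζ₀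
  set C : AddSubgroup (tateCurve T.q).toAffine.Point := N.map (toTateQb T ι) with hC
  have hcard : Nat.card C = n :=
    (Nat.card_congr (N.equivMapOfInjective _ (toTateQb_injective T ι)).toEquiv).symm
  have hunit : ∀ y ∈ C, IsUnitPt T.q_ne T.norm_q y := by
    rintro y ⟨x, hx, rfl⟩
    exact hcan x hx
  have hS := can_image T.q_ne T.norm_q hn0 hζ C hcard hunit
  rw [hC, AddSubgroup.coe_map] at hS
  have hqeq : T.q = (ζ : K) ^ (0 : ℤ) * ((Units.mk0 T.q T.q_ne : Kˣ) : K) ^ 1 := by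
    rw [zpow_zero, one_mul, pow_one, Units.val_mk0]
  have := jOf_eq_jq_of_image T ι hfin hstab hζ (Nat.pos_of_ne_zero hn0) Nat.one_pos
    (by rw [Units.val_mk0]; exact T.norm_q) 0 hqeq hS
  rwa [Units.val_mk0] at this

/-- **[MIX]** `N` stable cyclic of order `p^(k+1)`, `φ(pN)` unit points, `φ(N)` not:
`(jOf W N : K) = j(s)` with `s^p = q^(p^k)`. -/
theorem jOf_mix {p k : ℕ} (hp : p.Prime) {N : AddSubgroup (Pt W)}
    (hstab : ∀ σ : Qb ≃ₐ[ℚ] Qb, ∀ x ∈ N, σ • x ∈ N) (hcyc : IsAddCyclic N)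
    (hcard : Nat.card N = p ^ (k + 1))
    (hpN : ∀ x ∈ N, IsUnitPt T.q_ne T.norm_q (toTateQb T ι (p • x)))
    (hnot : ¬ ∀ x ∈ N, IsUnitPt T.q_ne T.norm_q (toTateQb T ι x)) :
    ∃ s : K, s ≠ 0 ∧ ‖s‖ < 1 ∧ s ^ p = T.q ^ (p ^ k) ∧ ((jOf W N : ℚ) : K) = T6.jq s := by
  have hpk1 : p ^ (k + 1) ≠ 0 := pow_ne_zero _ hp.ne_zero
  have hfinN : Finite N := Nat.finite_of_card_ne_zero (by rw [hcard]; exact hpk1)
  have hfin : (N : Set (Pt W)).Finite := Set.toFinite _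
  -- a generator
  obtain ⟨g₀, hg₀⟩ := hcyc.exists_generator
  have hord₀ : addOrderOf g₀ = p ^ (k + 1) := by
    rw [addOrderOf_eq_card_of_forall_mem_zmultiples hg₀, hcard]
  set g : Pt W := (g₀ : Pt W) with hg
  have hgN : g ∈ N := g₀.2
  have hordg : addOrderOf g = p ^ (k + 1) := by
    rw [hg, AddSubgroup.addOrderOf_coe, hord₀]
  have hordφ : addOrderOf (toTateQb T ι g) = p ^ (k + 1) := by
    rw [addOrderOf_injective (toTateQb T ι) (toTateQb_injective T ι), hordg]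
  have hgen : ∀ x ∈ N, ∃ m : ℤ, x = m • g := by
    intro x hx
    obtain ⟨m, hm⟩ := AddSubgroup.mem_zmultiples_iff.1 (hg₀ ⟨x, hx⟩)
    refine ⟨m, ?_⟩
    have := congrArg (fun z : N => (z : Pt W)) hm
    simpa using this.symm
  have hE0 : IsUnitPt T.q_ne T.norm_q (p • toTateQb T ι g) := by
    rw [← map_nsmul]; exact hpN g hgN
  have hnotg : ¬ IsUnitPt T.q_ne T.norm_q (toTateQb T ι g) := by
    intro hu
    apply hnot
    intro x hx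
    obtain ⟨m, rfl⟩ := hgen x hx
    rw [map_zsmul]
    exact hu.zsmul T.q_ne T.norm_q m
  -- roots
  have hNZ : NeZero ((p ^ (k + 1) : ℕ) : K) := ⟨Nat.cast_ne_zero.2 hpk1⟩
  obtain ⟨ζ₀, hζ₀⟩ := HasEnoughRootsOfUnity.exists_primitiveRoot K (p ^ (k + 1))
  set ζ : Kˣ := Units.mk0 ζ₀ (hζ₀.ne_zero hpk1) with hζdef
  have hζ : IsPrimitiveRoot (ζ : K) (p ^ (k + 1)) := by rw [hζdef, Units.val_mk0]; exact hζ₀
  obtain ⟨t₀, ht₀⟩ := IsAlgClosed.exists_pow_nat_eq T.q (Nat.pos_of_ne_zero hpk1)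
  have ht₀0 : t₀ ≠ 0 := by
    rintro rfl
    rw [zero_pow hpk1] at ht₀
    exact T.q_ne ht₀.symm
  set t : Kˣ := Units.mk0 t₀ ht₀0 with htdef
  have ht : t ^ (p ^ (k + 1)) = Units.mk0 T.q T.q_ne := by
    apply Units.ext
    rw [Units.val_pow_eq_pow_val, htdef, Units.val_mk0, Units.val_mk0, ht₀]
  set C : AddSubgroup (tateCurve T.q).toAffine.Point := N.map (toTateQb T ι) with hC
  have hcardC : Nat.card C = p ^ (k + 1) := by
    rw [← hcard]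
    exact (Nat.card_congr (N.equivMapOfInjective _ (toTateQb_injective T ι)).toEquiv).symm
  obtain ⟨ζ', h, a, hζ', hh1, hqeq, hs, hS⟩ := mix_image T.q_ne T.norm_q hp hζ ht C
    (AddSubgroup.mem_map_of_mem _ hgN) hordφ hcardC hE0 hnotg
  rw [hC, AddSubgroup.coe_map] at hS
  refine ⟨(h : K) ^ (p ^ k), pow_ne_zero _ h.ne_zero, ?_, hs, ?_⟩
  · rw [norm_pow]; exact pow_lt_one₀ (norm_nonneg _) hh1 (pow_pos hp.pos k).ne'
  · exact jOf_eq_jq_of_image T ι hfin hstab hζ' (pow_pos hp.pos k) hp.pos hh1 a hqeq hS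

end Local

/-! ### the local binder -/

/-- **(LOC a+b) at one place**: an embedding of `ℚ̄`, a Tate uniformisation of `W`, and the
criterion for the zero-component subgroup `E0` (abstract). -/
structure LocData (W : WeierstrassCurve ℤ) (K : Type v) [NormedField K] [IsUltrametricDist K]
    [CompleteSpace K] [CharZero K] [DecidableEq K] (E0 : AddSubgroup (Pt W)) where
  /-- the embedding -/
  ι : Qb →ₐ[ℚ] K
  /-- the Tate uniformisation -/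
  T : T4.TateUnif W K
  /-- the zero component in Tate coordinates -/
  mem_iff : ∀ x : Pt W, x ∈ E0 ↔
    ∃ u : Kˣ, ‖(u : K)‖ = 1 ∧ toTateQb T ι x = T2.Final.tateP T.q T.q_ne T.norm_q u

/-! ### valuations -/

section Val

variable {ℓ : ℕ} [Fact ℓ.Prime]

/-- `‖a'‖^m = ‖a‖^n ⟹ m v(a') = n v(a)`. -/
theorem mul_padicValRat_eq_of_norm_pow {K : Type*} [NormedField K] [IsUltrametricDist K]
    [CharZero K]
    (hK : ∀ x : ℚ, ‖(x : K)‖ = ((padicNorm ℓ x : ℚ) : ℝ)) {a a' : ℚ} (ha : a ≠ 0) (ha' : a' ≠ 0)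
    {m n : ℕ} (h : ‖(a' : K)‖ ^ m = ‖(a : K)‖ ^ n) :
    (m : ℤ) * padicValRat ℓ a' = (n : ℤ) * padicValRat ℓ a := by
  rw [T6.norm_ratCast_eq_zpow hK ha, T6.norm_ratCast_eq_zpow hK ha', ← zpow_natCast,
    ← zpow_natCast, ← zpow_mul, ← zpow_mul] at h
  have := T6.zpow_natCast_injective_of_prime (ℓ := ℓ) h
  linarith

theorem padicValRat_neg_of_one_lt_norm {K : Type*} [NormedField K] [IsUltrametricDist K]
    [CharZero K]
    (hK : ∀ x : ℚ, ‖(x : K)‖ = ((padicNorm ℓ x : ℚ) : ℝ)) {a : ℚ} (h : 1 < ‖(a : K)‖) :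
    padicValRat ℓ a < 0 := by
  have ha : a ≠ 0 := by
    rintro rfl
    rw [Rat.cast_zero, norm_zero] at h
    linarith
  rw [T6.norm_ratCast_eq_zpow hK ha] at h
  by_contra hcon
  rw [not_lt] at hcon
  have h1 : (1 : ℝ) ≤ ℓ := by exact_mod_cast (Fact.out : ℓ.Prime).one_lt.le
  have := zpow_le_one_of_nonpos₀ h1 (by linarith : -padicValRat ℓ a ≤ 0)
  linarith

end Val

/-! ### the exports, over `ℂ_[ℓ]` -/

section Exports

variable {W : WeierstrassCurve ℤ} {ℓ : ℕ} [Fact ℓ.Prime] [DecidableEq ℂ_[ℓ]]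
  {E0 : AddSubgroup (Pt W)} (D : LocData W ℂ_[ℓ] E0)

include D

theorem LocData.isUnitPt_of_mem {x : Pt W} (hx : x ∈ E0) :
    IsUnitPt D.T.q_ne D.T.norm_q (toTateQb D.T D.ι x) :=
  (D.mem_iff x).1 hx

theorem LocData.mem_of_isUnitPt {x : Pt W}
    (hx : IsUnitPt D.T.q_ne D.T.norm_q (toTateQb D.T D.ι x)) : x ∈ E0 :=
  (D.mem_iff x).2 hx

theorem one_lt_norm_jRat (hΔ : W.Δ ≠ 0) : 1 < ‖((jRat W : ℚ) : ℂ_[ℓ])‖ := by
  rw [jRat_eq_jq D.T hΔ]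
  exact T6.one_lt_norm_jq D.T.q_ne D.T.norm_q

/-- `v_ℓ(j(W)) < 0` at a place with a Tate uniformisation. -/
theorem padicValRat_jRat_neg' (hΔ : W.Δ ≠ 0) : padicValRat ℓ (jRat W) < 0 :=
  padicValRat_neg_of_one_lt_norm (T6.norm_ratCast_padicComplex ℓ) (one_lt_norm_jRat D hΔ)

/-- the `j`-value in the [CAN] case. -/
theorem ratCast_jOf_can {N : AddSubgroup (Pt W)} (hfin : (N : Set (Pt W)).Finite)
    (hstab : ∀ σ : Qb ≃ₐ[ℚ] Qb, ∀ x ∈ N, σ • x ∈ N) (hN : N ≤ E0) :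
    ((jOf W N : ℚ) : ℂ_[ℓ]) = T6.jq (D.T.q ^ Nat.card N) :=
  jOf_can D.T D.ι hfin hstab fun _ hx => D.isUnitPt_of_mem (hN hx)

/-- **(PAIR, CAN)**: `N` finite, `G_ℚ`-stable, `N ≤ E0` ⟹ `v_ℓ(a(N)) = #N · v_ℓ(j(W))`. -/
theorem pair_can (hΔ : W.Δ ≠ 0) {N : AddSubgroup (Pt W)} (hfin : (N : Set (Pt W)).Finite)
    (hstab : ∀ σ : Qb ≃ₐ[ℚ] Qb, ∀ x ∈ N, σ • x ∈ N) (hN : N ≤ E0) :
    padicValRat ℓ (jOf W N) = (Nat.card N : ℤ) * padicValRat ℓ (jRat W) := by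
  have : Finite N := hfin.to_subtype
  have hn0 : Nat.card N ≠ 0 := Nat.card_pos.ne'
  have hj := ratCast_jOf_can D hfin hstab hN
  have hqn1 : ‖D.T.q ^ Nat.card N‖ < 1 := by
    rw [norm_pow]; exact pow_lt_one₀ (norm_nonneg _) D.T.norm_q hn0
  have hnorm : ‖((jOf W N : ℚ) : ℂ_[ℓ])‖ = ‖((jRat W : ℚ) : ℂ_[ℓ])‖ ^ Nat.card N := by
    rw [hj, jRat_eq_jq D.T hΔ, T6.norm_jq hqn1, T6.norm_jq D.T.norm_q, norm_pow, inv_pow]
  have h1 := one_lt_norm_jRat D hΔ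
  have h2 : 1 < ‖((jOf W N : ℚ) : ℂ_[ℓ])‖ := by
    rw [hnorm]; exact one_lt_pow₀ h1 hn0
  exact T6.padicValRat_eq_mul_of_norm (T6.norm_ratCast_padicComplex ℓ)
    (T6.ne_zero_of_one_lt_norm h1) (T6.ne_zero_of_one_lt_norm h2) hnorm

/-- **(PAIR, MIX)**: `N` stable cyclic of order `p^(k+1)`, `pN ≤ E0`, `N ⊄ E0` ⟹
`p · v_ℓ(a(N)) = p^k · v_ℓ(j(W))`. -/
theorem pair_mix (hΔ : W.Δ ≠ 0) {p k : ℕ} (hp : p.Prime) {N : AddSubgroup (Pt W)}
    (hstab : ∀ σ : Qb ≃ₐ[ℚ] Qb, ∀ x ∈ N, σ • x ∈ N) (hcyc : IsAddCyclic N)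
    (hcard : Nat.card N = p ^ (k + 1)) (hpN : ∀ x ∈ N, p • x ∈ E0) (hnot : ¬ N ≤ E0) :
    (p : ℤ) * padicValRat ℓ (jOf W N) = ((p ^ k : ℕ) : ℤ) * padicValRat ℓ (jRat W) := by
  obtain ⟨s, hs0, hs1, hsp, hj⟩ := jOf_mix D.T D.ι hp hstab hcyc hcard
    (fun x hx => D.isUnitPt_of_mem (hpN x hx))
    (fun hall => hnot fun x hx => D.mem_of_isUnitPt (hall x hx))
  have hnorm : ‖((jOf W N : ℚ) : ℂ_[ℓ])‖ ^ p = ‖((jRat W : ℚ) : ℂ_[ℓ])‖ ^ (p ^ k) := by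
    rw [hj, jRat_eq_jq D.T hΔ, T6.norm_jq hs1, T6.norm_jq D.T.norm_q, inv_pow, inv_pow,
      ← norm_pow, hsp, norm_pow]
  have h1 := one_lt_norm_jRat D hΔ
  have h2 : 1 < ‖((jOf W N : ℚ) : ℂ_[ℓ])‖ := by
    rw [hj]; exact T6.one_lt_norm_jq hs0 hs1
  exact mul_padicValRat_eq_of_norm_pow (T6.norm_ratCast_padicComplex ℓ)
    (T6.ne_zero_of_one_lt_norm h1) (T6.ne_zero_of_one_lt_norm h2) hnorm

/-- **(PAIR, REL)**: `N`, `N'` finite stable `≤ E0` of orders `p^(k+1)`, `p^k` ⟹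
`RelQ p (a(N)) (a(N'))`. -/
theorem pair_rel {p k : ℕ} [NeZero p] (hp : p.Prime) {N N' : AddSubgroup (Pt W)}
    (hstab : ∀ σ : Qb ≃ₐ[ℚ] Qb, ∀ x ∈ N, σ • x ∈ N)
    (hstab' : ∀ σ : Qb ≃ₐ[ℚ] Qb, ∀ x ∈ N', σ • x ∈ N')
    (hcard : Nat.card N = p ^ (k + 1)) (hcard' : Nat.card N' = p ^ k)
    (hN : N ≤ E0) (hN' : N' ≤ E0) : RelQ p (jOf W N) (jOf W N') := by
  have hfinN : Finite N :=
    Nat.finite_of_card_ne_zero (by rw [hcard]; exact pow_ne_zero _ hp.ne_zero)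
  have hfinN' : Finite N' :=
    Nat.finite_of_card_ne_zero (by rw [hcard']; exact pow_ne_zero _ hp.ne_zero)
  have hj := ratCast_jOf_can D (Set.toFinite _) hstab hN
  have hj' := ratCast_jOf_can D (Set.toFinite _) hstab' hN'
  rw [hcard] at hj
  rw [hcard'] at hj'
  have ht0 : D.T.q ^ (p ^ k) ≠ 0 := pow_ne_zero _ D.T.q_ne
  have ht1 : ‖D.T.q ^ (p ^ k)‖ < 1 := by
    rw [norm_pow]; exact pow_lt_one₀ (norm_nonneg _) D.T.norm_q (pow_ne_zero _ hp.ne_zero)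
  refine T6.relQ_root hp ht0 ht1 ?_ hj'
  rw [hj, ← pow_mul, ← pow_succ]

end Exports

end Fermat.Agent.GZ.S12.Pair
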