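/-
CELL-M3 / S12, node (PAIR), file 6 (helper71): **`PairOut`**, the packaged output of (PAIR) in the
argument order of `CorePair` (`GZ/S12/CorePair.lean`).

`N' ≤ N` finite `G_ℚ`-stable subgroups of `W(ℚ̄)` of orders `p^k`, `p^(k+1)`;
`a := jOf W N`, `a' := jOf W N'` (`a_(k+1)`, `a_k` of helper9's DESIGN v1).

* `pairOut_can` : `N ≤ E0` at a place with `LocData` ⟹ `v(a) < 0 ∧ p v(a') = v(a)`;
* `pairOut_mix` : `N' ≤ E0`, `pN ≤ E0`, `N ⊄ E0` (`N` cyclic) ⟹ `v(a) < 0 ∧ v(a') = p v(a)`;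
* `pair_contra` : the contradiction with `CorePair p` (stated UNFOLDED, so that
  `hcore : CorePair p` can be passed as is): `N` canonical at `2` and `3`, mixed at `ℓ ≥ 5`,
  `ℓ ≠ p`, `ℓ ∤ p - 1` is impossible.
-/
import Mathlib
import Fermat.Agent.GZ.S12.Pair.Main

set_option autoImplicit false
set_option linter.unusedSectionVars false

noncomputable section

namespace Fermat.Agent.GZ.S12.Pair

open WeierstrassCurve Fermat.Agent.GZ.Tate Fermat.Agent.GZ.Mod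

open scoped WeierstrassCurve.Affine

/-- `ℚ̄`. -/
local notation "Qb" => AlgebraicClosure ℚ

section Out

variable {W : WeierstrassCurve ℤ} {ℓ : ℕ} [Fact ℓ.Prime] [DecidableEq ℂ_[ℓ]]
  {E0 : AddSubgroup (Pt W)} (D : LocData W ℂ_[ℓ] E0)

include D

/-- **PairOut at a canonical place**: `v(a) < 0` and `p v(a') = v(a)`. -/
theorem pairOut_can (hΔ : W.Δ ≠ 0) {p k : ℕ} (hp : p.Prime) {N N' : AddSubgroup (Pt W)}
    (hstab : ∀ σ : Qb ≃ₐ[ℚ] Qb, ∀ x ∈ N, σ • x ∈ N)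
    (hstab' : ∀ σ : Qb ≃ₐ[ℚ] Qb, ∀ x ∈ N', σ • x ∈ N')
    (hcard : Nat.card N = p ^ (k + 1)) (hcard' : Nat.card N' = p ^ k)
    (hN : N ≤ E0) (hN' : N' ≤ E0) :
    padicValRat ℓ (jOf W N) < 0 ∧
      (p : ℤ) * padicValRat ℓ (jOf W N') = padicValRat ℓ (jOf W N) := by
  have hfinN : Finite N :=
    Nat.finite_of_card_ne_zero (by rw [hcard]; exact pow_ne_zero _ hp.ne_zero)
  have hfinN' : Finite N' :=
    Nat.finite_of_card_ne_zero (by rw [hcard']; exact pow_ne_zero _ hp.ne_zero)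
  have h1 := pair_can D hΔ (Set.toFinite _) hstab hN
  have h2 := pair_can D hΔ (Set.toFinite _) hstab' hN'
  have hneg := padicValRat_jRat_neg' D hΔ
  rw [hcard] at h1
  rw [hcard'] at h2
  have hpos : (0 : ℤ) < ((p ^ (k + 1) : ℕ) : ℤ) := by
    exact_mod_cast pow_pos hp.pos (k + 1)
  refine ⟨?_, ?_⟩
  · rw [h1]; exact mul_neg_of_pos_of_neg hpos hneg
  · rw [h1, h2]; push_cast; ring

/-- **PairOut at a mixed place**: `v(a) < 0` and `v(a') = p v(a)`. -/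
theorem pairOut_mix (hΔ : W.Δ ≠ 0) {p k : ℕ} (hp : p.Prime) {N N' : AddSubgroup (Pt W)}
    (hstab : ∀ σ : Qb ≃ₐ[ℚ] Qb, ∀ x ∈ N, σ • x ∈ N)
    (hstab' : ∀ σ : Qb ≃ₐ[ℚ] Qb, ∀ x ∈ N', σ • x ∈ N') (hcyc : IsAddCyclic N)
    (hcard : Nat.card N = p ^ (k + 1)) (hcard' : Nat.card N' = p ^ k)
    (hN' : N' ≤ E0) (hpN : ∀ x ∈ N, p • x ∈ E0) (hnot : ¬ N ≤ E0) :
    padicValRat ℓ (jOf W N) < 0 ∧
      padicValRat ℓ (jOf W N') = (p : ℤ) * padicValRat ℓ (jOf W N) := by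
  have hfinN' : Finite N' :=
    Nat.finite_of_card_ne_zero (by rw [hcard']; exact pow_ne_zero _ hp.ne_zero)
  have h1 := pair_mix D hΔ hp hstab hcyc hcard hpN hnot
  have h2 := pair_can D hΔ (Set.toFinite _) hstab' hN'
  have hneg := padicValRat_jRat_neg' D hΔ
  rw [hcard'] at h2
  have hpos : (0 : ℤ) < ((p ^ k : ℕ) : ℤ) := by exact_mod_cast pow_pos hp.pos k
  have hppos : (0 : ℤ) < (p : ℤ) := by exact_mod_cast hp.pos
  refine ⟨?_, by rw [h2, h1]⟩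
  have h3 : (p : ℤ) * padicValRat ℓ (jOf W N) < 0 := by
    rw [h1]; exact mul_neg_of_pos_of_neg hpos hneg
  by_contra hcon
  rw [not_lt] at hcon
  have := mul_nonneg hppos.le hcon
  linarith

end Out

/-! ### the contradiction with `CorePair` -/

section Contra

variable {W : WeierstrassCurve ℤ}

/-- **(PAIR) + `CorePair`**: a stable cyclic `N` of order `p^(k+1)` which is canonical at a place
over `2` and at a place over `3` cannot be mixed (`N' = pN` canonical, `N` not) at a place over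
`ℓ ≥ 5`, `ℓ ≠ p`, `ℓ ∤ p - 1`.  `hcore` is `CorePair p` unfolded. -/
theorem pair_contra {p : ℕ} [NeZero p] (hp : p.Prime)
    (hcore : ∀ a a' : ℚ, RelQ p a a' →
      padicValRat 2 a < 0 → (p : ℤ) * padicValRat 2 a' = padicValRat 2 a →
      padicValRat 3 a < 0 → (p : ℤ) * padicValRat 3 a' = padicValRat 3 a →
      ∀ ℓ : ℕ, ℓ.Prime → ℓ ≠ p → 5 ≤ ℓ → ¬ ℓ ∣ p - 1 → padicValRat ℓ a < 0 →
        ¬ padicValRat ℓ a' = (p : ℤ) * padicValRat ℓ a)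
    (hΔ : W.Δ ≠ 0) {k : ℕ} {N N' : AddSubgroup (Pt W)}
    (hstab : ∀ σ : Qb ≃ₐ[ℚ] Qb, ∀ x ∈ N, σ • x ∈ N)
    (hstab' : ∀ σ : Qb ≃ₐ[ℚ] Qb, ∀ x ∈ N', σ • x ∈ N') (hcyc : IsAddCyclic N)
    (hcard : Nat.card N = p ^ (k + 1)) (hcard' : Nat.card N' = p ^ k) (hN'N : N' ≤ N)
    [DecidableEq ℂ_[2]] {E2 : AddSubgroup (Pt W)} (D2 : LocData W ℂ_[2] E2) (hN2 : N ≤ E2)
    [DecidableEq ℂ_[3]] {E3 : AddSubgroup (Pt W)} (D3 : LocData W ℂ_[3] E3) (hN3 : N ≤ E3)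
    {ℓ : ℕ} [hℓ : Fact ℓ.Prime] (hℓp : ℓ ≠ p) (hℓ5 : 5 ≤ ℓ) (hℓd : ¬ ℓ ∣ p - 1)
    [DecidableEq ℂ_[ℓ]] {E0 : AddSubgroup (Pt W)} (D : LocData W ℂ_[ℓ] E0)
    (hN' : N' ≤ E0) (hpN : ∀ x ∈ N, p • x ∈ E0) (hnot : ¬ N ≤ E0) : False := by
  have hrel := pair_rel D2 hp hstab hstab' hcard hcard' hN2 (hN'N.trans hN2)
  obtain ⟨h2a, h2b⟩ := pairOut_can D2 hΔ hp hstab hstab' hcard hcard' hN2 (hN'N.trans hN2)
  obtain ⟨h3a, h3b⟩ := pairOut_can D3 hΔ hp hstab hstab' hcard hcard' hN3 (hN'N.trans hN3)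
  obtain ⟨hℓa, hℓb⟩ := pairOut_mix D hΔ hp hstab hstab' hcyc hcard hcard' hN' hpN hnot
  exact hcore _ _ hrel h2a h2b h3a h3b ℓ hℓ.out hℓp hℓ5 hℓd hℓa hℓb

end Contra

end Fermat.Agent.GZ.S12.Pair
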