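/-
CELL-M3 / S12, node (PAIR), file 7 (helper71): **the exports of `Pair/Main.lean`, `Pair/Out.lean`
with the local binder in TORSION form** (`LocDataT`): the criterion `x ∈ E0 ↔ φ x = P u, ‖u‖ = 1`
is only required for TORSION points `x` — this is what (LOC b) proves
(`LocalTate.mem_e0_iff_exists_unit`, helper9), the Tate parametrisation being known to be onto
only on torsion.  (`LocData` of `Pair/Main.lean` is the special case; everything there stays valid.)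

* `LocDataT W K E0`, `LocData.toT`;
* `pair_canT`, `pair_mixT`, `pair_relT`, `pairOut_canT`, `pairOut_mixT`, `pair_contraT`.
-/
import Mathlib
import Fermat.Agent.GZ.S12.Pair.Out

set_option autoImplicit false
set_option linter.unusedSectionVars false

noncomputable section

namespace Fermat.Agent.GZ.S12.Pair

open WeierstrassCurve Fermat.Agent.GZ.Tate Fermat.Agent.GZ.Mod

open scoped WeierstrassCurve.Affine

/-- `ℚ̄`. -/
local notation "Qb" => AlgebraicClosure ℚ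

universe v

/-- **(LOC a+b) at one place, torsion form**: an embedding of `ℚ̄`, a Tate uniformisation of `W`,
and the criterion for the zero-component subgroup `E0` (abstract) on TORSION points. -/
structure LocDataT (W : WeierstrassCurve ℤ) (K : Type v) [NormedField K] [IsUltrametricDist K]
    [CompleteSpace K] [CharZero K] [DecidableEq K] (E0 : AddSubgroup (Pt W)) where
  /-- the embedding -/
  ι : Qb →ₐ[ℚ] K
  /-- the Tate uniformisation -/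
  T : T4.TateUnif W K
  /-- the zero component in Tate coordinates, on torsion points -/
  mem_iff : ∀ (n : ℕ), n ≠ 0 → ∀ x : Pt W, n • x = 0 → (x ∈ E0 ↔
    ∃ u : Kˣ, ‖(u : K)‖ = 1 ∧ toTateQb T ι x = T2.Final.tateP T.q T.q_ne T.norm_q u)

/-- the strong form gives the torsion form. -/
def LocData.toT {W : WeierstrassCurve ℤ} {K : Type v} [NormedField K] [IsUltrametricDist K]
    [CompleteSpace K] [CharZero K] [DecidableEq K] {E0 : AddSubgroup (Pt W)}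
    (D : LocData W K E0) : LocDataT W K E0 :=
  ⟨D.ι, D.T, fun _ _ x _ => D.mem_iff x⟩

section Exports

variable {W : WeierstrassCurve ℤ} {ℓ : ℕ} [Fact ℓ.Prime] [DecidableEq ℂ_[ℓ]]
  {E0 : AddSubgroup (Pt W)} (D : LocDataT W ℂ_[ℓ] E0)

include D

/-- points of a finite subgroup are torsion. -/
theorem card_nsmul_mem_eq_zero {N : AddSubgroup (Pt W)} [Finite N] {x : Pt W} (hx : x ∈ N) :
    Nat.card N • x = 0 := by
  have h1 : Nat.card N • (⟨x, hx⟩ : N) = 0 := card_nsmul_eq_zero'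
  have h2 : ((Nat.card N • (⟨x, hx⟩ : N) : N) : Pt W) = ((0 : N) : Pt W) := by rw [h1]
  rwa [AddSubgroup.coe_nsmul, AddSubgroup.coe_zero] at h2

theorem LocDataT.isUnitPt_of_mem {n : ℕ} (hn : n ≠ 0) {x : Pt W} (hnx : n • x = 0)
    (hx : x ∈ E0) : IsUnitPt D.T.q_ne D.T.norm_q (toTateQb D.T D.ι x) :=
  (D.mem_iff n hn x hnx).1 hx

theorem LocDataT.mem_of_isUnitPt {n : ℕ} (hn : n ≠ 0) {x : Pt W} (hnx : n • x = 0)
    (hx : IsUnitPt D.T.q_ne D.T.norm_q (toTateQb D.T D.ι x)) : x ∈ E0 :=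
  (D.mem_iff n hn x hnx).2 hx

theorem one_lt_norm_jRatT (hΔ : W.Δ ≠ 0) : 1 < ‖((jRat W : ℚ) : ℂ_[ℓ])‖ := by
  rw [jRat_eq_jq D.T hΔ]
  exact T6.one_lt_norm_jq D.T.q_ne D.T.norm_q

/-- `v_ℓ(j(W)) < 0` at a place with a Tate uniformisation. -/
theorem padicValRat_jRat_negT (hΔ : W.Δ ≠ 0) : padicValRat ℓ (jRat W) < 0 :=
  padicValRat_neg_of_one_lt_norm (T6.norm_ratCast_padicComplex ℓ) (one_lt_norm_jRatT D hΔ)

/-- the `j`-value in the [CAN] case. -/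
theorem ratCast_jOf_canT {N : AddSubgroup (Pt W)} (hfin : (N : Set (Pt W)).Finite)
    (hstab : ∀ σ : Qb ≃ₐ[ℚ] Qb, ∀ x ∈ N, σ • x ∈ N) (hN : N ≤ E0) :
    ((jOf W N : ℚ) : ℂ_[ℓ]) = T6.jq (D.T.q ^ Nat.card N) := by
  have : Finite N := hfin.to_subtype
  have hn0 : Nat.card N ≠ 0 := Nat.card_pos.ne'
  exact jOf_can D.T D.ι hfin hstab fun x hx =>
    D.isUnitPt_of_mem hn0 (card_nsmul_mem_eq_zero D hx) (hN hx)

/-- **(PAIR, CAN)**: `N` finite, `G_ℚ`-stable, `N ≤ E0` ⟹ `v_ℓ(a(N)) = #N · v_ℓ(j(W))`. -/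
theorem pair_canT (hΔ : W.Δ ≠ 0) {N : AddSubgroup (Pt W)} (hfin : (N : Set (Pt W)).Finite)
    (hstab : ∀ σ : Qb ≃ₐ[ℚ] Qb, ∀ x ∈ N, σ • x ∈ N) (hN : N ≤ E0) :
    padicValRat ℓ (jOf W N) = (Nat.card N : ℤ) * padicValRat ℓ (jRat W) := by
  have : Finite N := hfin.to_subtype
  have hn0 : Nat.card N ≠ 0 := Nat.card_pos.ne'
  have hj := ratCast_jOf_canT D hfin hstab hN
  have hqn1 : ‖D.T.q ^ Nat.card N‖ < 1 := by
    rw [norm_pow]; exact pow_lt_one₀ (norm_nonneg _) D.T.norm_q hn0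
  have hnorm : ‖((jOf W N : ℚ) : ℂ_[ℓ])‖ = ‖((jRat W : ℚ) : ℂ_[ℓ])‖ ^ Nat.card N := by
    rw [hj, jRat_eq_jq D.T hΔ, T6.norm_jq hqn1, T6.norm_jq D.T.norm_q, norm_pow, inv_pow]
  have h1 := one_lt_norm_jRatT D hΔ
  have h2 : 1 < ‖((jOf W N : ℚ) : ℂ_[ℓ])‖ := by
    rw [hnorm]; exact one_lt_pow₀ h1 hn0
  exact T6.padicValRat_eq_mul_of_norm (T6.norm_ratCast_padicComplex ℓ)
    (T6.ne_zero_of_one_lt_norm h1) (T6.ne_zero_of_one_lt_norm h2) hnorm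

/-- **(PAIR, MIX)**: `N` stable cyclic of order `p^(k+1)`, `pN ≤ E0`, `N ⊄ E0` ⟹
`p · v_ℓ(a(N)) = p^k · v_ℓ(j(W))`. -/
theorem pair_mixT (hΔ : W.Δ ≠ 0) {p k : ℕ} (hp : p.Prime) {N : AddSubgroup (Pt W)}
    (hstab : ∀ σ : Qb ≃ₐ[ℚ] Qb, ∀ x ∈ N, σ • x ∈ N) (hcyc : IsAddCyclic N)
    (hcard : Nat.card N = p ^ (k + 1)) (hpN : ∀ x ∈ N, p • x ∈ E0) (hnot : ¬ N ≤ E0) :
    (p : ℤ) * padicValRat ℓ (jOf W N) = ((p ^ k : ℕ) : ℤ) * padicValRat ℓ (jRat W) := by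
  have hpk1 : p ^ (k + 1) ≠ 0 := pow_ne_zero _ hp.ne_zero
  have hfinN : Finite N := Nat.finite_of_card_ne_zero (by rw [hcard]; exact hpk1)
  have hn0 : Nat.card N ≠ 0 := by rw [hcard]; exact hpk1
  obtain ⟨s, hs0, hs1, hsp, hj⟩ := jOf_mix D.T D.ι hp hstab hcyc hcard
    (fun x hx => D.isUnitPt_of_mem hn0
      (card_nsmul_mem_eq_zero D (N.nsmul_mem hx p)) (hpN x hx))
    (fun hall => hnot fun x hx =>
      D.mem_of_isUnitPt hn0 (card_nsmul_mem_eq_zero D hx) (hall x hx))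
  have hnorm : ‖((jOf W N : ℚ) : ℂ_[ℓ])‖ ^ p = ‖((jRat W : ℚ) : ℂ_[ℓ])‖ ^ (p ^ k) := by
    rw [hj, jRat_eq_jq D.T hΔ, T6.norm_jq hs1, T6.norm_jq D.T.norm_q, inv_pow, inv_pow,
      ← norm_pow, hsp, norm_pow]
  have h1 := one_lt_norm_jRatT D hΔ
  have h2 : 1 < ‖((jOf W N : ℚ) : ℂ_[ℓ])‖ := by
    rw [hj]; exact T6.one_lt_norm_jq hs0 hs1
  exact mul_padicValRat_eq_of_norm_pow (T6.norm_ratCast_padicComplex ℓ)
    (T6.ne_zero_of_one_lt_norm h1) (T6.ne_zero_of_one_lt_norm h2) hnorm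

/-- **(PAIR, REL)**: `N`, `N'` finite stable `≤ E0` of orders `p^(k+1)`, `p^k` ⟹
`RelQ p (a(N)) (a(N'))`. -/
theorem pair_relT {p k : ℕ} [NeZero p] (hp : p.Prime) {N N' : AddSubgroup (Pt W)}
    (hstab : ∀ σ : Qb ≃ₐ[ℚ] Qb, ∀ x ∈ N, σ • x ∈ N)
    (hstab' : ∀ σ : Qb ≃ₐ[ℚ] Qb, ∀ x ∈ N', σ • x ∈ N')
    (hcard : Nat.card N = p ^ (k + 1)) (hcard' : Nat.card N' = p ^ k)
    (hN : N ≤ E0) (hN' : N' ≤ E0) : RelQ p (jOf W N) (jOf W N') := by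
  have hfinN : Finite N :=
    Nat.finite_of_card_ne_zero (by rw [hcard]; exact pow_ne_zero _ hp.ne_zero)
  have hfinN' : Finite N' :=
    Nat.finite_of_card_ne_zero (by rw [hcard']; exact pow_ne_zero _ hp.ne_zero)
  have hj := ratCast_jOf_canT D (Set.toFinite _) hstab hN
  have hj' := ratCast_jOf_canT D (Set.toFinite _) hstab' hN'
  rw [hcard] at hj
  rw [hcard'] at hj'
  have ht0 : D.T.q ^ (p ^ k) ≠ 0 := pow_ne_zero _ D.T.q_ne
  have ht1 : ‖D.T.q ^ (p ^ k)‖ < 1 := by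
    rw [norm_pow]; exact pow_lt_one₀ (norm_nonneg _) D.T.norm_q (pow_ne_zero _ hp.ne_zero)
  refine T6.relQ_root hp ht0 ht1 ?_ hj'
  rw [hj, ← pow_mul, ← pow_succ]

/-- **PairOut at a canonical place**: `v(a) < 0` and `p v(a') = v(a)`. -/
theorem pairOut_canT (hΔ : W.Δ ≠ 0) {p k : ℕ} (hp : p.Prime) {N N' : AddSubgroup (Pt W)}
    (hstab : ∀ σ : Qb ≃ₐ[ℚ] Qb, ∀ x ∈ N, σ • x ∈ N)
    (hstab' : ∀ σ : Qb ≃ₐ[ℚ] Qb, ∀ x ∈ N', σ • x ∈ N')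
    (hcard : Nat.card N = p ^ (k + 1)) (hcard' : Nat.card N' = p ^ k)
    (hN : N ≤ E0) (hN' : N' ≤ E0) :
    padicValRat ℓ (jOf W N) < 0 ∧
      (p : ℤ) * padicValRat ℓ (jOf W N') = padicValRat ℓ (jOf W N) := by
  have hfinN : Finite N :=
    Nat.finite_of_card_ne_zero (by rw [hcard]; exact pow_ne_zero _ hp.ne_zero)
  have hfinN' : Finite N' :=
    Nat.finite_of_card_ne_zero (by rw [hcard']; exact pow_ne_zero _ hp.ne_zero)
  have h1 := pair_canT D hΔ (Set.toFinite _) hstab hN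
  have h2 := pair_canT D hΔ (Set.toFinite _) hstab' hN'
  have hneg := padicValRat_jRat_negT D hΔ
  rw [hcard] at h1
  rw [hcard'] at h2
  have hpos : (0 : ℤ) < ((p ^ (k + 1) : ℕ) : ℤ) := by
    exact_mod_cast pow_pos hp.pos (k + 1)
  refine ⟨?_, ?_⟩
  · rw [h1]; exact mul_neg_of_pos_of_neg hpos hneg
  · rw [h1, h2]; push_cast; ring

/-- **PairOut at a mixed place**: `v(a) < 0` and `v(a') = p v(a)`. -/
theorem pairOut_mixT (hΔ : W.Δ ≠ 0) {p k : ℕ} (hp : p.Prime) {N N' : AddSubgroup (Pt W)}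
    (hstab : ∀ σ : Qb ≃ₐ[ℚ] Qb, ∀ x ∈ N, σ • x ∈ N)
    (hstab' : ∀ σ : Qb ≃ₐ[ℚ] Qb, ∀ x ∈ N', σ • x ∈ N') (hcyc : IsAddCyclic N)
    (hcard : Nat.card N = p ^ (k + 1)) (hcard' : Nat.card N' = p ^ k)
    (hN' : N' ≤ E0) (hpN : ∀ x ∈ N, p • x ∈ E0) (hnot : ¬ N ≤ E0) :
    padicValRat ℓ (jOf W N) < 0 ∧
      padicValRat ℓ (jOf W N') = (p : ℤ) * padicValRat ℓ (jOf W N) := by
  have hfinN' : Finite N' :=
    Nat.finite_of_card_ne_zero (by rw [hcard']; exact pow_ne_zero _ hp.ne_zero)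
  have h1 := pair_mixT D hΔ hp hstab hcyc hcard hpN hnot
  have h2 := pair_canT D hΔ (Set.toFinite _) hstab' hN'
  have hneg := padicValRat_jRat_negT D hΔ
  rw [hcard'] at h2
  have hpos : (0 : ℤ) < ((p ^ k : ℕ) : ℤ) := by exact_mod_cast pow_pos hp.pos k
  have hppos : (0 : ℤ) < (p : ℤ) := by exact_mod_cast hp.pos
  refine ⟨?_, by rw [h2, h1]⟩
  have h3 : (p : ℤ) * padicValRat ℓ (jOf W N) < 0 := by
    rw [h1]; exact mul_neg_of_pos_of_neg hpos hneg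
  by_contra hcon
  rw [not_lt] at hcon
  have := mul_nonneg hppos.le hcon
  linarith

end Exports

/-! ### the contradiction with `CorePair` -/

section Contra

variable {W : WeierstrassCurve ℤ}

/-- **(PAIR) + `CorePair`**, torsion form of the local binders.  `hcore` is `CorePair p`
unfolded. -/
theorem pair_contraT {p : ℕ} [NeZero p] (hp : p.Prime)
    (hcore : ∀ a a' : ℚ, RelQ p a a' →
      padicValRat 2 a < 0 → (p : ℤ) * padicValRat 2 a' = padicValRat 2 a →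
      padicValRat 3 a < 0 → (p : ℤ) * padicValRat 3 a' = padicValRat 3 a →
      ∀ ℓ : ℕ, ℓ.Prime → ℓ ≠ p → 5 ≤ ℓ → ¬ ℓ ∣ p - 1 → padicValRat ℓ a < 0 →
        ¬ padicValRat ℓ a' = (p : ℤ) * padicValRat ℓ a)
    (hΔ : W.Δ ≠ 0) {k : ℕ} {N N' : AddSubgroup (Pt W)}
    (hstab : ∀ σ : Qb ≃ₐ[ℚ] Qb, ∀ x ∈ N, σ • x ∈ N)
    (hstab' : ∀ σ : Qb ≃ₐ[ℚ] Qb, ∀ x ∈ N', σ • x ∈ N') (hcyc : IsAddCyclic N)
    (hcard : Nat.card N = p ^ (k + 1)) (hcard' : Nat.card N' = p ^ k) (hN'N : N' ≤ N)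
    [DecidableEq ℂ_[2]] {E2 : AddSubgroup (Pt W)} (D2 : LocDataT W ℂ_[2] E2) (hN2 : N ≤ E2)
    [DecidableEq ℂ_[3]] {E3 : AddSubgroup (Pt W)} (D3 : LocDataT W ℂ_[3] E3) (hN3 : N ≤ E3)
    {ℓ : ℕ} [hℓ : Fact ℓ.Prime] (hℓp : ℓ ≠ p) (hℓ5 : 5 ≤ ℓ) (hℓd : ¬ ℓ ∣ p - 1)
    [DecidableEq ℂ_[ℓ]] {E0 : AddSubgroup (Pt W)} (D : LocDataT W ℂ_[ℓ] E0)
    (hN' : N' ≤ E0) (hpN : ∀ x ∈ N, p • x ∈ E0) (hnot : ¬ N ≤ E0) : False := by
  have hrel := pair_relT D2 hp hstab hstab' hcard hcard' hN2 (hN'N.trans hN2)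
  obtain ⟨h2a, h2b⟩ := pairOut_canT D2 hΔ hp hstab hstab' hcard hcard' hN2 (hN'N.trans hN2)
  obtain ⟨h3a, h3b⟩ := pairOut_canT D3 hΔ hp hstab hstab' hcard hcard' hN3 (hN'N.trans hN3)
  obtain ⟨hℓa, hℓb⟩ := pairOut_mixT D hΔ hp hstab hstab' hcyc hcard hcard' hN' hpN hnot
  exact hcore _ _ hrel h2a h2b h3a h3b ℓ hℓ.out hℓp hℓ5 hℓd hℓa hℓb

end Contra

end Fermat.Agent.GZ.S12.Pair
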