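/-
CELL-M3 / S12, node (PAIR), file 8 (helper71): **the plug** — the arithmetic binder `hmix` of
helper92's `GZ/S12/CanonChain.lean` (`hcan_of_nodes`, `can_one_of_nodes`) from `CorePair p`,
BINDER-FREE on the elliptic side.

* `nonempty_locDataT` : at a place `A ∣ ℓ` of multiplicative reduction (`Local.Mult W A ℓ`) the
  local binder `LocDataT W ℂ_[ℓ] (Local.e0 h)` of `Pair/Tors.lean` holds
  [(LOC a) helper87 `LocEmb.exists_embedding`, Tate uniformisation `T4.exists_tateUnif_padicComplex`,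
  (LOC b) helper9 `LocalTate.mem_e0_iff_exists_unit`];
* `exists_place` : every prime has a place of `ℚ̄` over it;
* **`hmix_of_corePair`** : the binder `hmix` of `Canon.hcan_of_nodes` VERBATIM (any `χ`, any `mult`,
  any family `E0` which is `Local.e0` at the multiplicative places);
* **`hmix_one_of_corePair`** : the binder `hmix` of `Canon.can_one_of_nodes` VERBATIM.
`hcore` is `CorePair p` (`GZ/S12/CorePair.lean`) UNFOLDED: pass `hcore : CorePair p` as is.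
-/
import Mathlib
import Fermat.Agent.GZ.S12.Pair.Tors
import Fermat.Agent.GZ.S12.LocalTate
import Fermat.Agent.GZ.S12.LocEmb
import Fermat.Agent.GZ.S12.CanonInd
import Fermat.Agent.GZ.Dev.Flag

set_option autoImplicit false
set_option linter.unusedSectionVars false
set_option linter.unusedVariables false

noncomputable section

namespace Fermat.Agent.GZ.S12.Pair

open WeierstrassCurve Fermat.Agent.GZ.Tate Fermat.Agent.GZ.Mod Fermat.Agent.GZ.Dev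
  Fermat.Agent.GZ.S12 ValuationSubring

open scoped WeierstrassCurve.Affine

/-- `ℚ̄`. -/
local notation "Qb" => AlgebraicClosure ℚ

/-- `G_ℚ`. -/
local notation "GQ" => (AlgebraicClosure ℚ ≃ₐ[ℚ] AlgebraicClosure ℚ)

/-! ### the local binder at a multiplicative place -/

/-- **(LOC a+b) as `LocDataT`** at a place of multiplicative reduction. -/
theorem nonempty_locDataT {W : WeierstrassCurve ℤ} {A : ValuationSubring Qb} {ℓ : ℕ}
    [Fact ℓ.Prime] [DecidableEq ℂ_[ℓ]] (h : Local.Mult W A ℓ) :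
    Nonempty (LocDataT W ℂ_[ℓ] (Local.e0 h)) := by
  obtain ⟨ι, -, hA, -, -⟩ := LocEmb.exists_embedding ℓ A h.lies
  obtain ⟨T, -, -⟩ :=
    T4.exists_tateUnif_padicComplex ℓ W h.disc_ne h.dvd_disc h.not_dvd_c₄
  exact ⟨⟨ι.toRatAlgHom, T, fun n hn x hx =>
    LocalTate.mem_e0_iff_exists_unit T ι hA h hn x hx⟩⟩

/-- every prime has a place of `ℚ̄` over it. -/
theorem exists_place (ℓ : ℕ) [Fact ℓ.Prime] : ∃ A : ValuationSubring Qb, A.LiesOverPrime ℓ := by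
  refine ⟨padicPlace ℓ, ?_⟩
  show ((ℓ : ℕ) : Qb) ∈ (padicPlace ℓ).nonunits
  rw [Fermat.Agent.GF.ETate.Ext.mem_nonunits_iff_norm_embK, map_natCast,
    ← map_natCast (algebraMap ℚ_[ℓ] ℂ_[ℓ]) ℓ, norm_algebraMap', Padic.norm_p]
  exact inv_lt_one_of_one_lt₀ (by exact_mod_cast (Fact.out : ℓ.Prime).one_lt)

/-! ### the binder `hmix` -/

section Hmix

variable (W : WeierstrassCurve ℤ) {p : ℕ} [NeZero p] {mult : ℕ → Prop}
  {E0 : ValuationSubring Qb → AddSubgroup (Pt W)}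

/-- the core: `N` canonical at all places over `2`, `3`, and mixed over `N' ≤ N` at `A ∣ ℓ`. -/
theorem false_of_mixed (hΔ : W.Δ ≠ 0) (hp : p.Prime)
    (hcore : ∀ a a' : ℚ, RelQ p a a' →
      padicValRat 2 a < 0 → (p : ℤ) * padicValRat 2 a' = padicValRat 2 a →
      padicValRat 3 a < 0 → (p : ℤ) * padicValRat 3 a' = padicValRat 3 a →
      ∀ ℓ : ℕ, ℓ.Prime → ℓ ≠ p → 5 ≤ ℓ → ¬ ℓ ∣ p - 1 → padicValRat ℓ a < 0 →
        ¬ padicValRat ℓ a' = (p : ℤ) * padicValRat ℓ a)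
    (hE0 : ∀ ℓ : ℕ, ℓ.Prime → mult ℓ → ∀ A : ValuationSubring Qb, A.LiesOverPrime ℓ →
      ∃ h : Local.Mult W A ℓ, E0 A = Local.e0 h)
    (hm2 : mult 2) (hm3 : mult 3) {k : ℕ} {N N' : AddSubgroup (Pt W)}
    (hstab : ∀ σ : GQ, ∀ x ∈ N, σ • x ∈ N) (hstab' : ∀ σ : GQ, ∀ x ∈ N', σ • x ∈ N')
    (hcyc : IsAddCyclic N) (hcard : Nat.card N = p ^ (k + 1)) (hcard' : Nat.card N' = p ^ k)
    (hN'N : N' ≤ N)
    (h2 : ∀ A : ValuationSubring Qb, A.LiesOverPrime 2 → N ≤ E0 A)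
    (h3 : ∀ A : ValuationSubring Qb, A.LiesOverPrime 3 → N ≤ E0 A)
    {ℓ : ℕ} (hℓ : ℓ.Prime) (hm : mult ℓ) (hℓp : ℓ ≠ p) (hℓ5 : 5 ≤ ℓ) (hℓd : ¬ ℓ ∣ p - 1)
    {A : ValuationSubring Qb} (hA : A.LiesOverPrime ℓ) (hN' : N' ≤ E0 A)
    (hpN : ∀ x ∈ N, p • x ∈ E0 A) (hnot : ¬ N ≤ E0 A) : False := by
  classical
  have : Fact ℓ.Prime := ⟨hℓ⟩
  obtain ⟨A₂, hA₂⟩ := exists_place 2
  obtain ⟨A₃, hA₃⟩ := exists_place 3
  obtain ⟨m2, e2⟩ := hE0 2 Nat.prime_two hm2 A₂ hA₂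
  obtain ⟨m3, e3⟩ := hE0 3 Nat.prime_three hm3 A₃ hA₃
  obtain ⟨mℓ, eℓ⟩ := hE0 ℓ hℓ hm A hA
  obtain ⟨D2⟩ := nonempty_locDataT (ℓ := 2) m2
  obtain ⟨D3⟩ := nonempty_locDataT (ℓ := 3) m3
  obtain ⟨D⟩ := nonempty_locDataT (ℓ := ℓ) mℓ
  have hN2 := h2 A₂ hA₂
  have hN3 := h3 A₃ hA₃
  rw [e2] at hN2
  rw [e3] at hN3
  rw [eℓ] at hN' hpN hnot
  exact pair_contraT hp hcore hΔ hstab hstab' hcyc hcard hcard' hN'N D2 hN2 D3 hN3 hℓp hℓ5 hℓd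
    D hN' hpN hnot

/-- **the binder `hmix` of `Canon.hcan_of_nodes`, VERBATIM**, from `CorePair p`. -/
theorem hmix_of_corePair (hΔ : W.Δ ≠ 0) (hp : p.Prime)
    (hcore : ∀ a a' : ℚ, RelQ p a a' →
      padicValRat 2 a < 0 → (p : ℤ) * padicValRat 2 a' = padicValRat 2 a →
      padicValRat 3 a < 0 → (p : ℤ) * padicValRat 3 a' = padicValRat 3 a →
      ∀ ℓ : ℕ, ℓ.Prime → ℓ ≠ p → 5 ≤ ℓ → ¬ ℓ ∣ p - 1 → padicValRat ℓ a < 0 →
        ¬ padicValRat ℓ a' = (p : ℤ) * padicValRat ℓ a)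
    (hE0 : ∀ ℓ : ℕ, ℓ.Prime → mult ℓ → ∀ A : ValuationSubring Qb, A.LiesOverPrime ℓ →
      ∃ h : Local.Mult W A ℓ, E0 A = Local.e0 h)
    (hm2 : mult 2) (hm3 : mult 3) (χ : GQ → ℕ) :
    ∀ k : ℕ, 1 ≤ k → ∀ N' : StableSub GQ (Pt W), IsAddCyclic ↥N'.U →
      Nat.card ↥N'.U = p ^ (k + 1) →
      (∀ (σ : GQ) (t : Pt W), p • t = 0 → σ • t - t ∈ N'.U) →
      (∀ (σ : GQ), ∀ x ∈ N'.U, p • x = 0 → σ • x = χ σ • x) →
      (∀ A : ValuationSubring Qb, A.LiesOverPrime 2 → N'.U ≤ E0 A) →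
      (∀ A : ValuationSubring Qb, A.LiesOverPrime 3 → N'.U ≤ E0 A) →
      ∀ ℓ : ℕ, ℓ.Prime → mult ℓ → ℓ ≠ p → 5 ≤ ℓ → ¬ ℓ ∣ p - 1 →
        ∀ A : ValuationSubring Qb, A.LiesOverPrime ℓ →
          (∀ x ∈ N'.U, p • x ∈ E0 A) → ¬ N'.U ≤ E0 A → False := by
  intro k _ N' hcyc hcard _ _ h2 h3 ℓ hℓ hm hℓp hℓ5 hℓd A hA hpN hnot
  have hsub := Canon.card_nsmulSub (N := N'.U) (i := 1) hp hcyc hcard (by omega)
  rw [pow_one] at hsub
  have hcard' : Nat.card (Canon.nsmulSub p N'.U) = p ^ k := by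
    rw [hsub.2]; congr 1
  refine false_of_mixed W hΔ hp hcore hE0 hm2 hm3 N'.smul_mem
    (Canon.nsmulSub_stable p N'.smul_mem) hcyc hcard hcard' (Canon.nsmulSub_le p N'.U) h2 h3
    hℓ hm hℓp hℓ5 hℓd hA ?_ hpN hnot
  intro x hx
  obtain ⟨y, hy, rfl⟩ := Canon.mem_nsmulSub.1 hx
  exact hpN y hy

/-- **the binder `hmix` of `Canon.can_one_of_nodes`, VERBATIM** (level one: `a' = j(W)`), from
`CorePair p`. -/
theorem hmix_one_of_corePair (hΔ : W.Δ ≠ 0) (hp : p.Prime)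
    (hcore : ∀ a a' : ℚ, RelQ p a a' →
      padicValRat 2 a < 0 → (p : ℤ) * padicValRat 2 a' = padicValRat 2 a →
      padicValRat 3 a < 0 → (p : ℤ) * padicValRat 3 a' = padicValRat 3 a →
      ∀ ℓ : ℕ, ℓ.Prime → ℓ ≠ p → 5 ≤ ℓ → ¬ ℓ ∣ p - 1 → padicValRat ℓ a < 0 →
        ¬ padicValRat ℓ a' = (p : ℤ) * padicValRat ℓ a)
    (hE0 : ∀ ℓ : ℕ, ℓ.Prime → mult ℓ → ∀ A : ValuationSubring Qb, A.LiesOverPrime ℓ →
      ∃ h : Local.Mult W A ℓ, E0 A = Local.e0 h)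
    (hm2 : mult 2) (hm3 : mult 3)
    (N : StableSub GQ (Pt W)) (hcyc : IsAddCyclic ↥N.U) (hcard : Nat.card ↥N.U = p ^ 1) :
    (∀ A : ValuationSubring Qb, A.LiesOverPrime 2 → N.U ≤ E0 A) →
      (∀ A : ValuationSubring Qb, A.LiesOverPrime 3 → N.U ≤ E0 A) →
      ∀ ℓ : ℕ, ℓ.Prime → mult ℓ → ℓ ≠ p → 5 ≤ ℓ → ¬ ℓ ∣ p - 1 →
        ∀ A : ValuationSubring Qb, A.LiesOverPrime ℓ → ¬ N.U ≤ E0 A → False := by
  intro h2 h3 ℓ hℓ hm hℓp hℓ5 hℓd A hA hnot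
  have hfin : Finite N.U :=
    Nat.finite_of_card_ne_zero (by rw [hcard]; exact pow_ne_zero _ hp.ne_zero)
  have hcard' : Nat.card (⊥ : AddSubgroup (Pt W)) = p ^ 0 := by
    rw [pow_zero]; exact AddSubgroup.card_bot
  refine false_of_mixed W hΔ hp hcore hE0 hm2 hm3 (k := 0) N.smul_mem ?_ hcyc
    (by rw [hcard]) hcard' bot_le h2 h3 hℓ hm hℓp hℓ5 hℓd hA bot_le ?_ hnot
  · intro σ x hx
    rw [AddSubgroup.mem_bot] at hx ⊢
    rw [hx]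
    exact smul_zero (A := Pt W) σ
  · intro x hx
    have h1 : Nat.card N.U • (⟨x, hx⟩ : N.U) = 0 := card_nsmul_eq_zero'
    have h2' : ((Nat.card N.U • (⟨x, hx⟩ : N.U) : N.U) : Pt W) = ((0 : N.U) : Pt W) := by
      rw [h1]
    rw [AddSubgroup.coe_nsmul, AddSubgroup.coe_zero, hcard, pow_one] at h2'
    show p • x ∈ E0 A
    have : p • x = 0 := h2'
    rw [this]
    exact (E0 A).zero_mem

end Hmix

end Fermat.Agent.GZ.S12.Pair
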