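/-
CELL-M3 (S12) / node (PAIR) ∘ (CAN), FINAL PLUG (helper71).

helper92's `CanonFinal.hcan_final` / `can_one_final` (the binder `hcan` of `ChainInd2.forall_chain2`
and the field `can` of `ChainInv … 1` on `(EQb W).Point`, for the family `CanonInst.E0 W`) with the
arithmetic binder `hmix` DISCHARGED by `Pair.hmix_of_corePair` / `Pair.hmix_one_of_corePair`.

The only hypothesis left besides the Frey frame (`W.Δ ≠ 0`, `ℓ ∣ Δ → ℓ ∤ c₄`, `2 ∣ Δ`, `3 ∣ Δ`,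
`5 ≤ p`) is `hcore` = the body of `Fermat.Agent.GZ.S12.CorePair p`, spelled out (a term
`hcore : CorePair p` plugs in by definitional unfolding; so does `Hmix.CoreBody p`).
-/
import Mathlib
import Fermat.Agent.GZ.S12.Pair.Frey
import Fermat.Agent.GZ.S12.CanonFinal

set_option autoImplicit false
set_option linter.unusedSectionVars false
set_option linter.unusedVariables false

noncomputable section

namespace Fermat.Agent.GZ.S12.Pair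

open WeierstrassCurve Fermat.Agent.GZ.Tate Fermat.Agent.GZ.Mod Fermat.Agent.GZ.Dev
  Fermat.Agent.GE.ECAssembly Fermat.Agent.GZ.S12 ValuationSubring ExtCitation

open scoped WeierstrassCurve.Affine

local notation "Qb" => AlgebraicClosure ℚ
local notation "GQ" => (AlgebraicClosure ℚ ≃ₐ[ℚ] AlgebraicClosure ℚ)

namespace FinalPlug

variable (W : WeierstrassCurve ℤ) {p : ℕ} [hp : Fact p.Prime]

/-- the hypothesis `hE0` of `Pair.hmix_of_corePair` for the family `CanonInst.E0 W`. -/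
theorem hE0_inst (hΔ : W.Δ ≠ 0)
    (hc₄ : ∀ ℓ : ℕ, ℓ.Prime → (ℓ : ℤ) ∣ W.Δ → ¬ (ℓ : ℤ) ∣ W.c₄) :
    ∀ ℓ : ℕ, ℓ.Prime → (ℓ : ℤ) ∣ W.Δ → ∀ A : ValuationSubring Qb, A.LiesOverPrime ℓ →
      ∃ h : Local.Mult W A ℓ, CanonInst.E0 W A = Local.e0 h :=
  fun ℓ hℓ hm A hA => ⟨CanonInst.mult_of W hΔ hc₄ hℓ hm hA, CanonInst.E0_eq _⟩

/-- **(CAN), the step, with `hmix` discharged**: the binder `hcan` of `ChainInd2.forall_chain2`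
on `(EQb W).Point` from the body of `CorePair p`. -/
theorem hcan_of_core (hΔ : W.Δ ≠ 0)
    (hc₄ : ∀ ℓ : ℕ, ℓ.Prime → (ℓ : ℤ) ∣ W.Δ → ¬ (ℓ : ℤ) ∣ W.c₄) (hp5 : 5 ≤ p)
    (hm2 : ((2 : ℕ) : ℤ) ∣ W.Δ) (hm3 : ((3 : ℕ) : ℤ) ∣ W.Δ)
    (hcore : ∀ a a' : ℚ, RelQ p a a' →
      padicValRat 2 a < 0 → (p : ℤ) * padicValRat 2 a' = padicValRat 2 a →
      padicValRat 3 a < 0 → (p : ℤ) * padicValRat 3 a' = padicValRat 3 a →
      ∀ ℓ : ℕ, ℓ.Prime → ℓ ≠ p → 5 ≤ ℓ → ¬ ℓ ∣ p - 1 → padicValRat ℓ a < 0 →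
        ¬ padicValRat ℓ a' = (p : ℤ) * padicValRat ℓ a) :
    ∀ k : ℕ, 1 ≤ k → ∀ N' : StableSub GQ (EQb W).Point, IsAddCyclic ↥N'.U →
      Nat.card ↥N'.U = p ^ (k + 1) →
      (∀ (σ : GQ) (t : (EQb W).Point), p • t = 0 → σ • t - t ∈ N'.U) →
      (∀ (σ : GQ), ∀ x ∈ N'.U, p • x = 0 → σ • x = cycloExp p σ • x) →
      (∀ ℓ : ℕ, ℓ.Prime → (ℓ : ℤ) ∣ W.Δ → ∀ A : ValuationSubring Qb, A.LiesOverPrime ℓ →
        ∀ x ∈ N'.U, p • x ∈ CanonInst.E0 W A) →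
      ∀ ℓ : ℕ, ℓ.Prime → (ℓ : ℤ) ∣ W.Δ → ∀ A : ValuationSubring Qb, A.LiesOverPrime ℓ →
        N'.U ≤ CanonInst.E0 W A :=
  haveI : NeZero p := ⟨hp.out.ne_zero⟩
  CanonFinal.hcan_final W hΔ hc₄ hp5 hm2 hm3
    (hmix_of_corePair W (mult := fun ℓ => (ℓ : ℤ) ∣ W.Δ) (E0 := CanonInst.E0 W) hΔ hp.out hcore
      (hE0_inst W hΔ hc₄) hm2 hm3 (cycloExp p))

/-- **(CAN), the base, with `hmix` discharged**: the field `can` of `ChainInv … 1` on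
`(EQb W).Point` from the body of `CorePair p`. -/
theorem can_one_of_core (hΔ : W.Δ ≠ 0)
    (hc₄ : ∀ ℓ : ℕ, ℓ.Prime → (ℓ : ℤ) ∣ W.Δ → ¬ (ℓ : ℤ) ∣ W.c₄) (hp5 : 5 ≤ p)
    (hm2 : ((2 : ℕ) : ℤ) ∣ W.Δ) (hm3 : ((3 : ℕ) : ℤ) ∣ W.Δ)
    (hcore : ∀ a a' : ℚ, RelQ p a a' →
      padicValRat 2 a < 0 → (p : ℤ) * padicValRat 2 a' = padicValRat 2 a →
      padicValRat 3 a < 0 → (p : ℤ) * padicValRat 3 a' = padicValRat 3 a →
      ∀ ℓ : ℕ, ℓ.Prime → ℓ ≠ p → 5 ≤ ℓ → ¬ ℓ ∣ p - 1 → padicValRat ℓ a < 0 →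
        ¬ padicValRat ℓ a' = (p : ℤ) * padicValRat ℓ a)
    (N : StableSub GQ (EQb W).Point) (hcyc : IsAddCyclic ↥N.U) (hcard : Nat.card ↥N.U = p ^ 1)
    (hcof1 : ∀ (σ : GQ) (t : (EQb W).Point), p • t = 0 → σ • t - t ∈ N.U)
    (hdet : ∀ (σ : GQ), ∀ x ∈ N.U, p • x = 0 → σ • x = cycloExp p σ • x) :
    ∀ ℓ : ℕ, ℓ.Prime → (ℓ : ℤ) ∣ W.Δ → ∀ A : ValuationSubring Qb, A.LiesOverPrime ℓ →
      N.U ≤ CanonInst.E0 W A :=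
  haveI : NeZero p := ⟨hp.out.ne_zero⟩
  CanonFinal.can_one_final W hΔ hc₄ hp5 hm2 hm3 N hcyc hcard hcof1 hdet
    (hmix_one_of_corePair W (mult := fun ℓ => (ℓ : ℤ) ∣ W.Δ) (E0 := CanonInst.E0 W) hΔ hp.out hcore
      (hE0_inst W hΔ hc₄) hm2 hm3 N hcyc hcard)

end FinalPlug

end Fermat.Agent.GZ.S12.Pair
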